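/-
S55 leaf 34z-CYCLO-ZP-TOWER (helper46), file 1: elementary arithmetic.
For a prime `p` and `a ≥ 2`, the `p`-part of the order of (a unit congruent to) `a` modulo `p ^ n`
tends to infinity with `n`.
-/
import Mathlib

set_option autoImplicit false

namespace Fermat.Agent.S55.CycloTower46.Arith

/-- If `t ∣ p ^ m * (p - 1)` and `¬ p ^ r ∣ t` then `t < p ^ r`. -/
theorem lt_pow_of_dvd_of_not_pow_dvd {p t m r : ℕ} (hp : p.Prime) (ht0 : t ≠ 0)
    (ht : t ∣ p ^ m * (p - 1)) (hr : ¬ p ^ r ∣ t) : t < p ^ r := by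
  obtain ⟨s, t', ht', rfl⟩ := Nat.exists_eq_pow_mul_and_not_dvd ht0 p hp.ne_one
  have hsr : s < r := by
    by_contra h
    push Not at h
    exact hr (Dvd.dvd.mul_right (pow_dvd_pow p h) t')
  have hcop : Nat.Coprime t' (p ^ m) :=
    Nat.Coprime.pow_right m ((Nat.Prime.coprime_iff_not_dvd hp).mpr ht').symm
  have h1 : t' ∣ p ^ m * (p - 1) := (Dvd.intro_left _ rfl).trans ht
  have h2 : t' ∣ p - 1 := hcop.dvd_of_dvd_mul_left h1
  have hp1 : 0 < p - 1 := Nat.sub_pos_of_lt hp.one_lt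
  have h3 : t' ≤ p - 1 := Nat.le_of_dvd hp1 h2
  have h4 : t' < p := by omega
  calc p ^ s * t' < p ^ s * p := Nat.mul_lt_mul_of_pos_left h4 (pow_pos hp.pos s)
    _ = p ^ (s + 1) := (pow_succ p s).symm
    _ ≤ p ^ r := Nat.pow_le_pow_right hp.pos hsr

/-- **Arith**: the `p`-part of the order of `a` modulo `p ^ n` is unbounded. -/
theorem exists_forall_pow_dvd_orderOf {p a : ℕ} (hp : p.Prime) (ha : 2 ≤ a) (r : ℕ) :
    ∃ n₀, ∀ n ≥ n₀, ∀ u : (ZMod (p ^ n))ˣ, (u : ZMod (p ^ n)) = (a : ZMod (p ^ n)) →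
      p ^ r ∣ orderOf u := by
  refine ⟨a ^ (p ^ r), fun n hn u hu => ?_⟩
  have hn₀ : a ^ (p ^ r) < p ^ (a ^ (p ^ r)) := Nat.lt_pow_self hp.one_lt
  have hn1 : a ^ (p ^ r) < p ^ n := lt_of_lt_of_le hn₀ (Nat.pow_le_pow_right hp.pos hn)
  have hnpos : 0 < n := by
    have : 2 ≤ a ^ (p ^ r) := by
      calc 2 ≤ a := ha
        _ = a ^ 1 := (pow_one a).symm
        _ ≤ a ^ (p ^ r) := Nat.pow_le_pow_right (by omega) (Nat.one_le_pow _ _ hp.pos)
    omega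
  have : NeZero (p ^ n) := ⟨(pow_pos hp.pos n).ne'⟩
  have : Fact (1 < p ^ n) := ⟨Nat.one_lt_pow hnpos.ne' hp.one_lt⟩
  set t := orderOf u with ht
  have ht0 : t ≠ 0 := (orderOf_pos u).ne'
  have hcard : Fintype.card (ZMod (p ^ n))ˣ = p ^ (n - 1) * (p - 1) := by
    rw [ZMod.card_units_eq_totient, Nat.totient_prime_pow hp hnpos]
  have htd : t ∣ p ^ (n - 1) * (p - 1) := by
    rw [← hcard]
    exact orderOf_dvd_card
  by_contra hr
  have htlt : t < p ^ r := lt_pow_of_dvd_of_not_pow_dvd hp ht0 htd hr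
  -- `a ^ t ≡ 1 mod p ^ n`
  have h1 : ((a ^ t : ℕ) : ZMod (p ^ n)) = ((1 : ℕ) : ZMod (p ^ n)) := by
    have := congrArg (fun x : (ZMod (p ^ n))ˣ => (x : ZMod (p ^ n))) (pow_orderOf_eq_one u)
    simp only [Units.val_pow_eq_pow_val, Units.val_one] at this
    rw [hu] at this
    push_cast
    exact this
  have h2 : a ^ t ≡ 1 [MOD p ^ n] := (ZMod.natCast_eq_natCast_iff _ _ _).mp h1
  have hat : 2 ≤ a ^ t := by
    calc 2 ≤ a := ha
      _ = a ^ 1 := (pow_one a).symm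
      _ ≤ a ^ t := Nat.pow_le_pow_right (by omega) (Nat.one_le_iff_ne_zero.mpr ht0)
  have h3 : p ^ n ∣ a ^ t - 1 := (Nat.modEq_iff_dvd' (by omega)).mp h2.symm
  have h4 : p ^ n ≤ a ^ t - 1 := Nat.le_of_dvd (by omega) h3
  have h5 : a ^ t ≤ a ^ (p ^ r) := Nat.pow_le_pow_right (by omega) htlt.le
  omega

end Fermat.Agent.S55.CycloTower46.Arith
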