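/-
S55 leaf 34z-CYCLO-ZP-TOWER (helper46), file 3: roots of unity of order prime to `q` versus
inertia / Frobenius at a valuation subring over `q`; the cyclotomic fields `ℚ(μ_n) ⊆ ℚ̄` are
unramified outside the primes dividing `n` (Prelude vocabulary).
-/
import Mathlib
import Fermat.Prelude.Def_GroupCohomology_ContinuousUnramified
import Fermat.Prelude.Def_EllipticCurve_FrobeniusTrace
import Fermat.Agent.Lib.InertiaGenerate

set_option autoImplicit false

open scoped Pointwise

namespace Fermat.Agent.S55.CycloTower46.Global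

section General

variable {L : Type*} [Field L]

/-- In a valuation subring whose maximal ideal contains the prime `q`, an `n`-th root of unity
(`q ∤ n`) congruent to `1` is `1`. -/
theorem eq_one_of_pow_eq_one_of_sub_one_mem_nonunits (A : ValuationSubring L) {q : ℕ}
    (hq : q.Prime) (hA : (q : L) ∈ A.nonunits) {n : ℕ} (hn : ¬ q ∣ n) {ξ : L} (hξ : ξ ^ n = 1)
    (h : ξ - 1 ∈ A.nonunits) : ξ = 1 := by
  by_contra hne
  have hn0 : n ≠ 0 := fun h0 => hn (h0 ▸ dvd_zero q)
  have hξA : ξ ∈ A := by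
    have : ξ - 1 ∈ A := A.nonunits_le h
    simpa using A.add_mem _ _ this A.one_mem
  -- geometric sum vanishes
  have hsum : ∑ i ∈ Finset.range n, ξ ^ i = 0 := by
    have h1 : (∑ i ∈ Finset.range n, ξ ^ i) * (ξ - 1) = 0 := by
      rw [geom_sum_mul, hξ, sub_self]
    exact (mul_eq_zero.mp h1).resolve_right (sub_ne_zero.mpr hne)
  -- pass to the residue field
  let x : A := ⟨ξ, hξA⟩
  have hx1 : IsLocalRing.residue A x = 1 := by
    rw [← sub_eq_zero, ← map_one (IsLocalRing.residue A), ← map_sub,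
      IsLocalRing.residue_eq_zero_iff, ← A.coe_mem_nonunits_iff]
    exact h
  have hsumA : ∑ i ∈ Finset.range n, x ^ i = 0 := by
    apply Subtype.ext
    simpa using hsum
  have hnk : ((n : ℕ) : IsLocalRing.ResidueField A) = 0 := by
    have := congrArg (IsLocalRing.residue A) hsumA
    simpa [map_sum, map_pow, hx1] using this
  have hqk : ((q : ℕ) : IsLocalRing.ResidueField A) = 0 := by
    have hq' : ((q : ℕ) : A) ∈ IsLocalRing.maximalIdeal A := by
      rw [← A.coe_mem_nonunits_iff]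
      simpa using hA
    have := (IsLocalRing.residue_eq_zero_iff _).mpr hq'
    simpa using this
  have hcop : Nat.Coprime n q := ((Nat.Prime.coprime_iff_not_dvd hq).mpr hn).symm
  obtain ⟨a, b, hab⟩ := (Nat.isCoprime_iff_coprime.mpr hcop)
  have := congrArg (Int.cast : ℤ → IsLocalRing.ResidueField A) hab
  push_cast at this
  rw [hnk, hqk, mul_zero, mul_zero, add_zero] at this
  exact zero_ne_one this

/-- two `n`-th roots of unity (`q ∤ n`) which are congruent modulo the maximal ideal are equal -/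
theorem eq_of_pow_eq_one_of_sub_mem_nonunits (A : ValuationSubring L) {q : ℕ}
    (hq : q.Prime) (hA : (q : L) ∈ A.nonunits) {n : ℕ} (hn : ¬ q ∣ n) {ξ η : L} (hξ : ξ ^ n = 1)
    (hη : η ^ n = 1) (h : ξ - η ∈ A.nonunits) : ξ = η := by
  have hn0 : n ≠ 0 := fun h0 => hn (h0 ▸ dvd_zero q)
  have hη0 : η ≠ 0 := fun h0 => by
    rw [h0, zero_pow hn0] at hη; exact zero_ne_one hη
  have hηinv : η⁻¹ ∈ A := by
    -- `η⁻¹ = η ^ (n - 1)` is integral
    have h1 : η⁻¹ = η ^ (n - 1) := by
      have : η ^ (n - 1) * η = 1 := by rw [← pow_succ, Nat.sub_add_cancel (Nat.one_le_iff_ne_zero.mpr hn0), hη]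
      exact (eq_inv_of_mul_eq_one_left this).symm
    have hηA : η ∈ A := by
      have hint : IsIntegral ℤ η := ⟨Polynomial.X ^ n - 1, Polynomial.monic_X_pow_sub_C 1 hn0, by simp [hη]⟩
      have h1 : IsIntegral A η := hint.tower_top
      obtain ⟨y, rfl⟩ := IsIntegrallyClosed.algebraMap_eq_of_integral h1
      exact y.2
    rw [h1]
    exact pow_mem hηA _
  have key : ξ * η⁻¹ - 1 = η⁻¹ * (ξ - η) := by
    field_simp
  have h2 : ξ * η⁻¹ - 1 ∈ A.nonunits := by
    rw [key, ValuationSubring.mem_nonunits_iff A, map_mul]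
    have hx' : A.valuation η⁻¹ ≤ 1 := (A.valuation_le_one_iff _).mpr hηinv
    have hy : A.valuation (ξ - η) < 1 := (ValuationSubring.mem_nonunits_iff A).mp h
    calc A.valuation η⁻¹ * A.valuation (ξ - η) ≤ 1 * A.valuation (ξ - η) := mul_le_mul_left hx' _
      _ = A.valuation (ξ - η) := one_mul _
      _ < 1 := hy
  have h3 : (ξ * η⁻¹) ^ n = 1 := by rw [mul_pow, inv_pow, hξ, hη, inv_one, mul_one]
  have := eq_one_of_pow_eq_one_of_sub_one_mem_nonunits A hq hA hn h3 h2
  field_simp at this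
  exact this

end General

section Cyclo

open Fermat.Agent.Lib.FrobeniusExists Fermat.Agent.Lib.InertiaGenerate

/-- the `n`-th cyclotomic field inside `ℚ̄` -/
noncomputable def cycloField (n : ℕ) : IntermediateField ℚ Qb :=
  IntermediateField.adjoin ℚ {ζ : Qb | ζ ^ n = 1}

theorem mem_cycloField {n : ℕ} {ζ : Qb} (h : ζ ^ n = 1) : ζ ∈ cycloField n :=
  IntermediateField.subset_adjoin _ _ h

/-- the `n`-th roots of unity of a field form a finite set (`n ≠ 0`) -/
theorem finite_setOf_pow_eq_one (L : Type*) [Field L] {n : ℕ} (hn : n ≠ 0) :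
    {ζ : L | ζ ^ n = 1}.Finite := by
  have : {ζ : L | ζ ^ n = 1} = ↑(Polynomial.nthRootsFinset n (1 : L)) := by
    ext ζ
    simp [Polynomial.mem_nthRootsFinset (Nat.pos_of_ne_zero hn)]
  rw [this]
  exact Finset.finite_toSet _

theorem finiteDimensional_cycloField {n : ℕ} (hn : n ≠ 0) :
    FiniteDimensional ℚ (cycloField n) := by
  have : Finite {ζ : Qb | ζ ^ n = 1} := (finite_setOf_pow_eq_one Qb hn).to_subtype
  exact IntermediateField.finiteDimensional_adjoin
    (fun x _ => (isAlgebraic_Qb.isAlgebraic x).isIntegral)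

/-- `σ` fixes `ℚ(μ_n)` iff it fixes every `n`-th root of unity -/
theorem mem_fixingSubgroup_cycloField_iff {n : ℕ} {σ : GQ} :
    σ ∈ (cycloField n).fixingSubgroup ↔ ∀ ζ : Qb, ζ ^ n = 1 → σ ζ = ζ := by
  rw [IntermediateField.mem_fixingSubgroup_iff]
  refine ⟨fun h ζ hζ => h ζ (mem_cycloField hζ), fun h x hx => ?_⟩
  induction hx using IntermediateField.adjoin_induction with
  | mem x hx => exact h x hx
  | algebraMap x => exact σ.commutes x
  | add x y _ _ hx hy => rw [map_add, hx, hy]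
  | inv x _ hx => rw [map_inv₀, hx]
  | mul x y _ _ hx hy => rw [map_mul, hx, hy]

theorem cycloField_mono {m n : ℕ} (h : m ∣ n) : cycloField m ≤ cycloField n := by
  refine IntermediateField.adjoin_le_iff.mpr fun ζ hζ => ?_
  obtain ⟨k, rfl⟩ := h
  exact mem_cycloField (by rw [pow_mul, (hζ : ζ ^ m = 1), one_pow])

/-- a root of unity is integral over `ℤ` -/
theorem isIntegral_of_pow_eq_one {L : Type*} [Field L] {n : ℕ} (hn : n ≠ 0) {ζ : L}
    (hζ : ζ ^ n = 1) : IsIntegral ℤ ζ :=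
  ⟨Polynomial.X ^ n - 1, Polynomial.monic_X_pow_sub_C 1 hn, by simp [hζ]⟩

/-- **Inertia at `q` fixes the roots of unity of order prime to `q`.** -/
theorem rootOfUnity_fixed_of_mem_inertia {q : ℕ} (hq : q.Prime) (A : ValuationSubring Qb)
    (hA : A.LiesOverPrime q) {σ : GQ} (hσ : σ ∈ A.inertiaSubgroupIn ℚ) {n : ℕ} (hn : ¬ q ∣ n)
    {ζ : Qb} (hζ : ζ ^ n = 1) : σ ζ = ζ := by
  have hn0 : n ≠ 0 := fun h0 => hn (h0 ▸ dvd_zero q)
  let b : Zb := ⟨ζ, isIntegral_of_pow_eq_one hn0 hζ⟩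
  have h1 := sub_mem_center_of_mem_inertiaSubgroupIn hσ b
  rw [mem_center] at h1
  have h2 : σ ζ - ζ ∈ A.nonunits := h1
  exact eq_of_pow_eq_one_of_sub_mem_nonunits A hq hA hn (by rw [← map_pow, hζ, map_one]) hζ h2

/-- **`ℚ(μ_n)` is unramified outside the primes dividing `n`** (Prelude vocabulary). -/
theorem cycloField_isUnramifiedOutside (S : Finset Nat.Primes) {n : ℕ} (hn : n ≠ 0)
    (hS : ∀ q : Nat.Primes, (q : ℕ) ∣ n → q ∈ S) : (cycloField n).IsUnramifiedOutside S := by
  refine ⟨finiteDimensional_cycloField hn, fun q hq A hA σ hσ => ?_⟩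
  rw [mem_fixingSubgroup_cycloField_iff]
  intro ζ hζ
  exact rootOfUnity_fixed_of_mem_inertia q.2 A hA hσ (fun h => hq (hS q h)) hζ

/-- the `p`-cyclotomic tower is unramified outside `S ∋ p` -/
theorem cycloField_prime_pow_isUnramifiedOutside (S : Finset Nat.Primes) (p : Nat.Primes)
    (hp : p ∈ S) (n : ℕ) : (cycloField ((p : ℕ) ^ n)).IsUnramifiedOutside S := by
  refine cycloField_isUnramifiedOutside S (pow_ne_zero _ p.2.ne_zero) fun q hq => ?_
  have := (Nat.prime_dvd_prime_iff_eq q.2 p.2).mp (q.2.dvd_of_dvd_pow hq)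
  rwa [Subtype.ext this]

/-- **A Frobenius element at `q` raises roots of unity of order prime to `q` to the `q`-th
power.** -/
theorem frobenius_rootOfUnity {q : ℕ} (hq : q.Prime) (A : ValuationSubring Qb)
    (hA : A.LiesOverPrime q) {σ : GQ} (h : A.IsFrobeniusAt σ q) {n : ℕ} (hn : ¬ q ∣ n)
    {ζ : Qb} (hζ : ζ ^ n = 1) : σ ζ = ζ ^ q := by
  have hn0 : n ≠ 0 := fun h0 => hn (h0 ▸ dvd_zero q)
  obtain ⟨hσ, hfrob⟩ := h
  have hζA : ζ ∈ A := isIntegral_int_mem A (isIntegral_of_pow_eq_one hn0 hζ)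
  let x : A := ⟨ζ, hζA⟩
  have h1 := hfrob (IsLocalRing.residue A x)
  rw [← IsLocalRing.ResidueField.residue_smul, ← map_pow, ← sub_eq_zero, ← map_sub,
    IsLocalRing.residue_eq_zero_iff, ← A.coe_mem_nonunits_iff] at h1
  have h2 : σ ζ - ζ ^ q ∈ A.nonunits := h1
  refine eq_of_pow_eq_one_of_sub_mem_nonunits A hq hA hn (by rw [← map_pow, hζ, map_one]) ?_ h2
  rw [← pow_mul, mul_comm, pow_mul, hζ, one_pow]

end Cyclo

end Fermat.Agent.S55.CycloTower46.Global
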