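/-
S55 leaf 34z-CYCLO-ZP-TOWER (helper46), file 2: an index lemma.
`K` normal, `U` arbitrary: `[G : K]` divides `[U : K ∩ U] * [G : U]`.
-/
import Mathlib

set_option autoImplicit false

namespace Fermat.Agent.S55.CycloTower46.Index

variable {G : Type*} [Group G]

/-- `[G : K] ∣ [U : K ⊓ U] * [G : U]` for `K` normal. -/
theorem index_dvd_relIndex_mul_index (K U : Subgroup G) [K.Normal] :
    K.index ∣ (K ⊓ U).relIndex U * U.index := by
  rw [Subgroup.inf_relIndex_right, ← Subgroup.relIndex_sup_left U K,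
    ← Subgroup.relIndex_mul_index (le_sup_left : K ≤ K ⊔ U)]
  exact mul_dvd_mul_left _ (Subgroup.index_dvd_of_le le_sup_right)

/-- If `p ^ (r + v_p(d)) ∣ a * d` with `d ≠ 0` then `p ^ r ∣ a`. -/
theorem pow_dvd_of_pow_add_dvd_mul {p a d r : ℕ} (hp : p.Prime) (hd : d ≠ 0)
    (h : p ^ (r + padicValNat p d) ∣ a * d) : p ^ r ∣ a := by
  have : Fact p.Prime := ⟨hp⟩
  rcases eq_or_ne a 0 with rfl | ha
  · exact dvd_zero _
  rw [padicValNat_dvd_iff_le (Nat.mul_ne_zero ha hd), padicValNat.mul ha hd] at h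
  rw [padicValNat_dvd_iff_le ha]
  omega

/-- the `p`-part of `[U : K ⊓ U]` is at least the `p`-part of `[G : K]` divided by that of
`[G : U]`. -/
theorem pow_dvd_relIndex {p r : ℕ} (hp : p.Prime) (K U : Subgroup G) [K.Normal]
    (hU : U.index ≠ 0) (h : p ^ (r + padicValNat p U.index) ∣ K.index) :
    p ^ r ∣ (K ⊓ U).relIndex U :=
  pow_dvd_of_pow_add_dvd_mul hp hU (h.trans (index_dvd_relIndex_mul_index K U))

end Fermat.Agent.S55.CycloTower46.Index
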