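/-
S55 leaf 34z-CYCLO-ZP-TOWER (helper46), file 4: the `p`-cyclotomic tower seen from the local
Galois group `G_q = Gal(ℚ̄_q/ℚ_q)` (every prime `q`, including `q = p`): the index of the
stabiliser of `μ_{p^n}` in `G_q` has unbounded `p`-part, hence so does the local degree of
`F(μ_{p^n})/F` for every number field `F ⊆ ℚ̄` (level form) and of `E(μ_{p^n})/E` for every finite
`E/ℚ_q` (field form).
-/
import Mathlib
import Fermat.Prelude.Def_GaloisRep_CompletionBridge
import Fermat.Agent.S55.ProfinLoc80.Decomp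
import Fermat.Agent.S55.UnrBridge42.Inertia
import Fermat.Agent.S55.CycloTower46.Arith
import Fermat.Agent.S55.CycloTower46.Index
import Fermat.Agent.S55.CycloTower46.Global

set_option autoImplicit false

open scoped Pointwise

namespace Fermat.Agent.S55.CycloTower46.Local

open Fermat.Agent.Lib.FrobeniusExists Fermat.Agent.S55.CycloTower46.Global

attribute [local instance] isAlgebraic_Qb isAlgClosure_Qb isGalois_Qb

section Group

variable {G : Type*} [Group G]

/-- the order of the class of `τ` modulo a normal subgroup divides the index -/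
theorem orderOf_mk_dvd_index (K : Subgroup G) [K.Normal] (τ : G) :
    orderOf (QuotientGroup.mk τ : G ⧸ K) ∣ K.index := by
  rw [Subgroup.index_eq_card]
  exact orderOf_dvd_natCard _

/-- if the powers of `τ` lying in `K` are those killing `u`, the order of `u` divides the index -/
theorem orderOf_dvd_index_of_pow_mem_iff {H : Type*} [Monoid H] (K : Subgroup G) [K.Normal]
    (τ : G) (u : H) (h : ∀ k : ℕ, τ ^ k ∈ K ↔ u ^ k = 1) : orderOf u ∣ K.index := by
  have : orderOf u = orderOf (QuotientGroup.mk τ : G ⧸ K) := by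
    rw [orderOf_eq_orderOf_iff]
    intro k
    rw [← h k, ← QuotientGroup.mk_pow, QuotientGroup.eq_one_iff]
  rw [this]
  exact orderOf_mk_dvd_index K τ

end Group

variable (q : ℕ) [Fact q.Prime]

/-- the local absolute Galois group -/
abbrev Gq : Type := PadicAlgCl q ≃ₐ[ℚ_[q]] PadicAlgCl q

/-- the stabiliser in `G_q` of the (global) `N`-th roots of unity: the pull-back of
`Gal(ℚ̄/ℚ(μ_N))` along `localGaloisToGlobal q`. -/
noncomputable def levelStab (N : ℕ) : Subgroup (Gq q) :=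
  (cycloField N).fixingSubgroup.comap (localGaloisToGlobal q)

theorem mem_levelStab_iff {N : ℕ} {τ : Gq q} :
    τ ∈ levelStab q N ↔ ∀ ζ : Qb, ζ ^ N = 1 → localGaloisToGlobal q τ ζ = ζ := by
  rw [levelStab, Subgroup.mem_comap, mem_fixingSubgroup_cycloField_iff]

instance levelStab_normal (N : ℕ) : (levelStab q N).Normal := by
  refine ⟨fun τ hτ g => ?_⟩
  rw [mem_levelStab_iff] at hτ ⊢
  intro ζ hζ
  rw [map_mul, map_mul, AlgEquiv.mul_apply, AlgEquiv.mul_apply, map_inv]
  have h1 : ((localGaloisToGlobal q g)⁻¹ ζ) ^ N = 1 := by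
    rw [← map_pow, hζ, map_one]
  rw [hτ _ h1]
  exact AlgEquiv.apply_symm_apply (localGaloisToGlobal q g) ζ

theorem levelStab_index_ne_zero {N : ℕ} (hN : N ≠ 0) : (levelStab q N).index ≠ 0 := by
  have hfd : FiniteDimensional ℚ (cycloField N) := finiteDimensional_cycloField hN
  have h1 : (cycloField N).fixingSubgroup.index ≠ 0 := by
    rw [← IntermediateField.finrank_eq_fixingSubgroup_index]
    exact Module.finrank_pos.ne'
  have : (cycloField N).fixingSubgroup.FiniteIndex := ⟨h1⟩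
  rw [levelStab, Subgroup.index_comap]
  have := Subgroup.isFiniteRelIndex_of_finiteIndex (H := (cycloField N).fixingSubgroup)
    (K := (localGaloisToGlobal q).range)
  exact Subgroup.relIndex_ne_zero

/-! ### `q ≠ p`: a Frobenius lift -/

/-- a local lift of a global Frobenius element at `padicPlace q`: it raises every (global) root
of unity of order prime to `q` to its `q`-th power. -/
theorem exists_local_frobenius :
    ∃ τ : Gq q, ∀ N : ℕ, ¬ q ∣ N → ∀ ζ : Qb, ζ ^ N = 1 →
      localGaloisToGlobal q τ ζ = ζ ^ q := by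
  have hq : q.Prime := Fact.out
  have hA := Fermat.Agent.S55.UnrBridge42.liesOverPrime_padicPlace q
  obtain ⟨σ, hσ⟩ := exists_isFrobeniusAt (padicPlace q) hq hA
  have hmem : σ ∈ (localGaloisToGlobal q).range := by
    rw [Fermat.Agent.S55.ProfinLoc80.range_localGaloisToGlobal]
    exact hσ.mem_decompositionSubgroup
  obtain ⟨τ, rfl⟩ := hmem
  exact ⟨τ, fun N hN ζ hζ => frobenius_rootOfUnity hq _ hA hσ hN hζ⟩

variable {q} in
theorem pow_apply_of_frobenius {τ : Gq q} {N : ℕ}
    (hτ : ∀ ζ : Qb, ζ ^ N = 1 → localGaloisToGlobal q τ ζ = ζ ^ q) (k : ℕ) :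
    ∀ ζ : Qb, ζ ^ N = 1 → localGaloisToGlobal q (τ ^ k) ζ = ζ ^ (q ^ k) := by
  induction k with
  | zero => intro ζ _; simp
  | succ k ih =>
    intro ζ hζ
    have h1 : (ζ ^ q) ^ N = 1 := by rw [← pow_mul, mul_comm, pow_mul, hζ, one_pow]
    rw [pow_succ, map_mul, AlgEquiv.mul_apply, hτ ζ hζ, ih _ h1, ← pow_mul, ← pow_succ']

variable {q} in
/-- the powers of a Frobenius lift fixing `μ_N` are those killing `q mod N` -/
theorem pow_mem_levelStab_iff {τ : Gq q} {N : ℕ} (hN0 : N ≠ 0)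
    (hτ : ∀ ζ : Qb, ζ ^ N = 1 → localGaloisToGlobal q τ ζ = ζ ^ q) (k : ℕ) :
    τ ^ k ∈ levelStab q N ↔ (q : ZMod N) ^ k = 1 := by
  have hq : q.Prime := Fact.out
  have hqk : 1 ≤ q ^ k := Nat.one_le_pow _ _ hq.pos
  have hcast : (q : ZMod N) ^ k = 1 ↔ N ∣ q ^ k - 1 := by
    rw [← Nat.modEq_iff_dvd' hqk, ← ZMod.natCast_eq_natCast_iff]
    push_cast
    exact eq_comm
  rw [hcast, mem_levelStab_iff]
  constructor
  · intro h
    have : NeZero ((N : ℕ) : Qb) := ⟨Nat.cast_ne_zero.mpr hN0⟩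
    obtain ⟨ζ₀, hζ₀⟩ := HasEnoughRootsOfUnity.exists_primitiveRoot Qb N
    have h1 := h ζ₀ hζ₀.pow_eq_one
    rw [pow_apply_of_frobenius hτ k ζ₀ hζ₀.pow_eq_one] at h1
    have h2 : ζ₀ ^ (q ^ k - 1) = 1 := by
      have h3 : ζ₀ ^ (q ^ k - 1) * ζ₀ = 1 * ζ₀ := by
        rw [← pow_succ, Nat.sub_add_cancel hqk, h1, one_mul]
      exact mul_right_cancel₀ (hζ₀.ne_zero hN0) h3
    exact (hζ₀.pow_eq_one_iff_dvd _).mp h2
  · rintro ⟨t, ht⟩ ζ hζ
    rw [pow_apply_of_frobenius hτ k ζ hζ]
    have : q ^ k = N * t + 1 := by omega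
    rw [this, pow_succ, pow_mul, hζ, one_pow, one_mul]

/-- **`q ≠ p`**: the index in `G_q` of the stabiliser of `μ_{p^n}` has unbounded `p`-part. -/
theorem exists_pow_dvd_index_levelStab_of_ne {p : ℕ} (hp : p.Prime) (hqp : q ≠ p) (r : ℕ) :
    ∃ n₀, ∀ n ≥ n₀, p ^ r ∣ (levelStab q (p ^ n)).index := by
  have hq : q.Prime := Fact.out
  obtain ⟨τ, hτ⟩ := exists_local_frobenius q
  obtain ⟨n₀, hn₀⟩ := Arith.exists_forall_pow_dvd_orderOf (a := q) hp hq.two_le r
  refine ⟨n₀, fun n hn => ?_⟩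
  have hndvd : ¬ q ∣ p ^ n := fun h =>
    hqp ((Nat.prime_dvd_prime_iff_eq hq hp).mp (hq.dvd_of_dvd_pow h))
  have hcop : Nat.Coprime q (p ^ n) := (Nat.Prime.coprime_iff_not_dvd hq).mpr hndvd
  let u : (ZMod (p ^ n))ˣ := ZMod.unitOfCoprime q hcop
  have hu : (u : ZMod (p ^ n)) = (q : ZMod (p ^ n)) := ZMod.coe_unitOfCoprime q hcop
  refine (hn₀ n hn u hu).trans ?_
  refine orderOf_dvd_index_of_pow_mem_iff (levelStab q (p ^ n)) τ u fun k => ?_
  rw [pow_mem_levelStab_iff (pow_ne_zero n hp.ne_zero) (hτ _ hndvd) k, ← hu,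
    ← Units.val_pow_eq_pow_val, Units.val_eq_one]

/-! ### `q = p`: Eisenstein -/

section EqualChar

open Polynomial

variable (p : ℕ) [Fact p.Prime]

/-- the shifted cyclotomic polynomial `Φ_{p^(n+1)}(X + 1)` over `ℤ` -/
noncomputable def shiftCyclo (n : ℕ) : ℤ[X] := (cyclotomic (p ^ (n + 1)) ℤ).comp (X + 1)

omit [Fact p.Prime] in
theorem shiftCyclo_monic (n : ℕ) : (shiftCyclo p n).Monic := by
  rw [shiftCyclo, show (X + 1 : ℤ[X]) = X + C 1 by simp]
  refine (cyclotomic.monic _ ℤ).comp (monic_X_add_C 1) fun h => ?_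
  rw [natDegree_X_add_C] at h
  exact zero_ne_one h.symm

theorem shiftCyclo_natDegree_pos (n : ℕ) : 0 < (shiftCyclo p n).natDegree := by
  have hp : p.Prime := Fact.out
  rw [shiftCyclo, natDegree_comp, show (X + 1 : ℤ[X]) = X + C 1 by simp, natDegree_X_add_C, mul_one,
    natDegree_cyclotomic]
  exact Nat.totient_pos.mpr (pow_pos hp.pos _)

theorem shiftCyclo_map_isEisensteinAt (n : ℕ) :
    ((shiftCyclo p n).map (Int.castRingHom ℤ_[p])).IsEisensteinAt (Ideal.span {(p : ℤ_[p])}) := by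
  have hE := cyclotomic_prime_pow_comp_X_add_one_isEisensteinAt p n
  have hmon := shiftCyclo_monic p n
  refine Monic.isEisensteinAt_of_mem_of_notMem (hmon.map _) ?_ ?_ ?_
  · rw [← PadicInt.maximalIdeal_eq_span_p]
    exact Ideal.IsPrime.ne_top inferInstance
  · intro i hi
    rw [hmon.natDegree_map] at hi
    have h1 := hE.mem hi
    rw [Ideal.submodule_span_eq, Ideal.mem_span_singleton] at h1
    obtain ⟨c, hc⟩ := h1
    rw [coeff_map, Ideal.mem_span_singleton]
    refine ⟨(c : ℤ_[p]), ?_⟩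
    have : (shiftCyclo p n).coeff i = (p : ℤ) * c := hc
    rw [this]
    simp
  · rw [coeff_map, Ideal.span_singleton_pow, Ideal.mem_span_singleton]
    intro h
    have h1 : ((p : ℤ) ^ 2) ∣ (shiftCyclo p n).coeff 0 := by
      have := (PadicInt.pow_p_dvd_int_iff (p := p) 2 ((shiftCyclo p n).coeff 0)).mp
      exact this (by simpa using h)
    apply hE.notMem
    rw [Ideal.submodule_span_eq, Ideal.span_singleton_pow, Ideal.mem_span_singleton]
    exact h1

theorem shiftCyclo_map_irreducible (n : ℕ) :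
    Irreducible ((shiftCyclo p n).map (Int.castRingHom ℚ_[p])) := by
  have hmon := (shiftCyclo_monic p n).map (Int.castRingHom ℤ_[p])
  have hprime : (Ideal.span {(p : ℤ_[p])}).IsPrime := by
    rw [← PadicInt.maximalIdeal_eq_span_p]
    infer_instance
  have hirr : Irreducible ((shiftCyclo p n).map (Int.castRingHom ℤ_[p])) := by
    refine (shiftCyclo_map_isEisensteinAt p n).irreducible hprime hmon.isPrimitive ?_
    rw [(shiftCyclo_monic p n).natDegree_map]
    exact shiftCyclo_natDegree_pos p n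
  have := (Monic.irreducible_iff_irreducible_map_fraction_map (K := ℚ_[p]) hmon).mp hirr
  rwa [map_map, show (algebraMap ℤ_[p] ℚ_[p]).comp (Int.castRingHom ℤ_[p]) = Int.castRingHom ℚ_[p]
    from RingHom.ext_int _ _] at this


/-- **`Gal(ℚ̄_p/ℚ_p)` permutes the primitive `p^(n+1)`-th roots of unity transitively.** -/
theorem exists_algEquiv_primitiveRoot (n : ℕ) {η η' : PadicAlgCl p}
    (h : IsPrimitiveRoot η (p ^ (n + 1))) (h' : IsPrimitiveRoot η' (p ^ (n + 1))) :
    ∃ τ : Gq p, τ η = η' := by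
  have hp : p.Prime := Fact.out
  set f := (shiftCyclo p n).map (Int.castRingHom ℚ_[p]) with hf
  have hirr : Irreducible f := shiftCyclo_map_irreducible p n
  have hmon : f.Monic := (shiftCyclo_monic p n).map _
  have hroot : ∀ ξ : PadicAlgCl p, IsPrimitiveRoot ξ (p ^ (n + 1)) → aeval (ξ - 1) f = 0 := by
    intro ξ hξ
    have h1 : aeval (ξ - 1) f =
        eval₂ (Int.castRingHom (PadicAlgCl p)) (ξ - 1) (shiftCyclo p n) := by
      rw [hf, aeval_def, eval₂_map]
      congr 1
    rw [h1, shiftCyclo, eval₂_comp]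
    have h2 : eval₂ (Int.castRingHom (PadicAlgCl p)) (ξ - 1) (X + 1) = ξ := by simp
    rw [h2, eval₂_eq_eval_map, map_cyclotomic]
    exact hξ.isRoot_cyclotomic (pow_pos hp.pos _)
  have e1 : f = minpoly ℚ_[p] (η - 1) := minpoly.eq_of_irreducible_of_monic hirr (hroot η h) hmon
  have e2 : f = minpoly ℚ_[p] (η' - 1) :=
    minpoly.eq_of_irreducible_of_monic hirr (hroot η' h') hmon
  have hconj : IsConjRoot ℚ_[p] (η' - 1) (η - 1) := by rw [isConjRoot_def, ← e1, ← e2]
  have : Normal ℚ_[p] (PadicAlgCl p) := IsAlgClosure.normal _ _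
  obtain ⟨τ, hτ⟩ := IsConjRoot.exists_algEquiv hconj
  refine ⟨τ, ?_⟩
  rw [map_sub, map_one] at hτ
  exact sub_left_injective hτ

/-- the stabiliser of the global `N`-th roots of unity is the stabiliser of the image of one
primitive root -/
theorem mem_levelStab_iff_of_isPrimitiveRoot {N : ℕ} {ζ₀ : Qb} (hζ₀ : IsPrimitiveRoot ζ₀ N)
    (hN : 0 < N) {τ : Gq q} :
    τ ∈ levelStab q N ↔ τ (padicEmbedding q ζ₀) = padicEmbedding q ζ₀ := by
  rw [mem_levelStab_iff, ← padicEmbedding_localGaloisToGlobal]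
  constructor
  · intro h
    rw [h ζ₀ hζ₀.pow_eq_one]
  · intro h ζ hζ
    have h0 : localGaloisToGlobal q τ ζ₀ = ζ₀ :=
      Fermat.Agent.S55.ProfinLoc80.padicEmbedding_injective q h
    have : NeZero N := ⟨hN.ne'⟩
    obtain ⟨i, -, rfl⟩ := hζ₀.eq_pow_of_pow_eq_one hζ
    rw [map_pow, h0]

/-- **`q = p`**: `[G_p : Stab(μ_{p^(n+1)})] = φ(p^(n+1))` (total ramification of the cyclotomic
tower, in the form of Eisenstein irreducibility). -/
theorem index_levelStab_prime_pow (n : ℕ) :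
    (levelStab p (p ^ (n + 1))).index = (p ^ (n + 1)).totient := by
  have hp : p.Prime := Fact.out
  have hN : 0 < p ^ (n + 1) := pow_pos hp.pos _
  have : NeZero ((p ^ (n + 1) : ℕ) : Qb) := ⟨Nat.cast_ne_zero.mpr hN.ne'⟩
  obtain ⟨ζ₀, hζ₀⟩ := HasEnoughRootsOfUnity.exists_primitiveRoot Qb (p ^ (n + 1))
  set η₀ : PadicAlgCl p := padicEmbedding p ζ₀ with hη₀
  have hη₀prim : IsPrimitiveRoot η₀ (p ^ (n + 1)) :=
    hζ₀.map_of_injective (Fermat.Agent.S55.ProfinLoc80.padicEmbedding_injective p)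
  have hstab : levelStab p (p ^ (n + 1)) = MulAction.stabilizer (Gq p) η₀ := by
    ext τ
    rw [mem_levelStab_iff_of_isPrimitiveRoot p hζ₀ hN, MulAction.mem_stabilizer_iff,
      AlgEquiv.smul_def]
  have horbit : MulAction.orbit (Gq p) η₀ = ↑(primitiveRoots (p ^ (n + 1)) (PadicAlgCl p)) := by
    ext η
    rw [Finset.mem_coe, mem_primitiveRoots hN, MulAction.mem_orbit_iff]
    constructor
    · rintro ⟨τ, rfl⟩
      rw [AlgEquiv.smul_def]
      exact hη₀prim.map_of_injective τ.injective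
    · intro hη
      obtain ⟨τ, hτ⟩ := exists_algEquiv_primitiveRoot p n hη₀prim hη
      exact ⟨τ, hτ⟩
  rw [hstab, MulAction.index_stabilizer, horbit, Set.ncard_coe_finset,
    hη₀prim.card_primitiveRoots]

theorem exists_pow_dvd_index_levelStab_self (r : ℕ) :
    ∃ n₀, ∀ n ≥ n₀, p ^ r ∣ (levelStab p (p ^ n)).index := by
  have hp : p.Prime := Fact.out
  refine ⟨r + 1, fun n hn => ?_⟩
  obtain ⟨m, rfl⟩ : ∃ m, n = m + 1 := ⟨n - 1, by omega⟩
  rw [index_levelStab_prime_pow, Nat.totient_prime_pow_succ hp]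
  exact Dvd.dvd.mul_right (pow_dvd_pow p (by omega)) _

end EqualChar

/-- **every `q`, every `p`**: the index in `G_q` of the stabiliser of `μ_{p^n}` has unbounded
`p`-part. -/
theorem exists_pow_dvd_index_levelStab {p : ℕ} (hp : p.Prime) (r : ℕ) :
    ∃ n₀, ∀ n ≥ n₀, p ^ r ∣ (levelStab q (p ^ n)).index := by
  by_cases hqp : q = p
  · subst hqp
    exact exists_pow_dvd_index_levelStab_self q r
  · exact exists_pow_dvd_index_levelStab_of_ne q hp hqp r

/-! ### MAIN, level form -/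

/-- the pull-back to `G_q` of the fixing subgroup of a number field has finite index -/
theorem index_comap_fixingSubgroup_ne_zero (F : IntermediateField ℚ Qb) [FiniteDimensional ℚ F] :
    (F.fixingSubgroup.comap (localGaloisToGlobal q)).index ≠ 0 := by
  have h1 : F.fixingSubgroup.index ≠ 0 := by
    rw [← IntermediateField.finrank_eq_fixingSubgroup_index]
    exact Module.finrank_pos.ne'
  have : F.fixingSubgroup.FiniteIndex := ⟨h1⟩
  rw [Subgroup.index_comap]
  have := Subgroup.isFiniteRelIndex_of_finiteIndex (H := F.fixingSubgroup)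
    (K := (localGaloisToGlobal q).range)
  exact Subgroup.relIndex_ne_zero

/-- **MAIN (level form).** For every prime `q` (including `q = p`), every number field
`F ⊆ ℚ̄` and every `r`: for all large `n`, `p ^ r` divides the index of the local Galois group of
`F(μ_{p^n})` in that of `F` (both pulled back to `G_q` along `localGaloisToGlobal q`), i.e. the
local degree at (the place induced by `padicEmbedding q`) of `F(μ_{p^n})/F`. -/
theorem exists_pow_dvd_relIndex_level {p : ℕ} (hp : p.Prime) (F : IntermediateField ℚ Qb)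
    [FiniteDimensional ℚ F] (r : ℕ) :
    ∃ n₀, ∀ n ≥ n₀, p ^ r ∣
      (((F ⊔ cycloField (p ^ n)).fixingSubgroup).comap (localGaloisToGlobal q)).relIndex
        ((F.fixingSubgroup).comap (localGaloisToGlobal q)) := by
  set U := (F.fixingSubgroup).comap (localGaloisToGlobal q) with hU
  have hU0 : U.index ≠ 0 := index_comap_fixingSubgroup_ne_zero q F
  obtain ⟨n₀, hn₀⟩ := exists_pow_dvd_index_levelStab q hp (r + padicValNat p U.index)
  refine ⟨n₀, fun n hn => ?_⟩
  have h1 := Index.pow_dvd_relIndex hp (levelStab q (p ^ n)) U hU0 (hn₀ n hn)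
  have h2 : ((F ⊔ cycloField (p ^ n)).fixingSubgroup).comap (localGaloisToGlobal q) =
      levelStab q (p ^ n) ⊓ U := by
    rw [IntermediateField.fixingSubgroup_sup, Subgroup.comap_inf, inf_comm]
    rfl
  rw [h2]
  exact h1

/-! ### the local cyclotomic fields and MAIN, field form -/

/-- every `N`-th root of unity of `ℚ̄_q` comes from `ℚ̄` -/
theorem exists_padicEmbedding_eq_of_pow_eq_one {N : ℕ} (hN : N ≠ 0) {η : PadicAlgCl q}
    (hη : η ^ N = 1) : ∃ ζ : Qb, ζ ^ N = 1 ∧ padicEmbedding q ζ = η := by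
  have : NeZero ((N : ℕ) : Qb) := ⟨Nat.cast_ne_zero.mpr hN⟩
  have : NeZero N := ⟨hN⟩
  obtain ⟨ζ₀, hζ₀⟩ := HasEnoughRootsOfUnity.exists_primitiveRoot Qb N
  have hη₀ : IsPrimitiveRoot (padicEmbedding q ζ₀) N :=
    hζ₀.map_of_injective (Fermat.Agent.S55.ProfinLoc80.padicEmbedding_injective q)
  obtain ⟨i, -, rfl⟩ := hη₀.eq_pow_of_pow_eq_one hη
  refine ⟨ζ₀ ^ i, ?_, map_pow _ _ _⟩
  rw [← pow_mul, mul_comm, pow_mul, hζ₀.pow_eq_one, one_pow]

/-- `ℚ_q(μ_N) ⊆ ℚ̄_q` -/
noncomputable def localCyclo (N : ℕ) : IntermediateField ℚ_[q] (PadicAlgCl q) :=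
  IntermediateField.adjoin ℚ_[q] {η : PadicAlgCl q | η ^ N = 1}

theorem mem_fixingSubgroup_localCyclo_iff {N : ℕ} {τ : Gq q} :
    τ ∈ (localCyclo q N).fixingSubgroup ↔ ∀ η : PadicAlgCl q, η ^ N = 1 → τ η = η := by
  rw [IntermediateField.mem_fixingSubgroup_iff]
  refine ⟨fun h η hη => h η (IntermediateField.subset_adjoin _ _ hη), fun h x hx => ?_⟩
  induction hx using IntermediateField.adjoin_induction with
  | mem x hx => exact h x hx
  | algebraMap x => exact τ.commutes x
  | add x y _ _ hx hy => rw [map_add, hx, hy]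
  | inv x _ hx => rw [map_inv₀, hx]
  | mul x y _ _ hx hy => rw [map_mul, hx, hy]

/-- the fixing subgroup of `ℚ_q(μ_N)` is the pull-back of that of `ℚ(μ_N)` -/
theorem fixingSubgroup_localCyclo {N : ℕ} (hN : N ≠ 0) :
    (localCyclo q N).fixingSubgroup = levelStab q N := by
  ext τ
  rw [mem_fixingSubgroup_localCyclo_iff, mem_levelStab_iff]
  constructor
  · intro h ζ hζ
    apply Fermat.Agent.S55.ProfinLoc80.padicEmbedding_injective q
    rw [padicEmbedding_localGaloisToGlobal]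
    exact h _ (by rw [← map_pow, hζ, map_one])
  · intro h η hη
    obtain ⟨ζ, hζ, rfl⟩ := exists_padicEmbedding_eq_of_pow_eq_one q hN hη
    rw [← padicEmbedding_localGaloisToGlobal, h ζ hζ]

theorem finiteDimensional_localCyclo {N : ℕ} (hN : N ≠ 0) :
    FiniteDimensional ℚ_[q] (localCyclo q N) := by
  have : Finite {η : PadicAlgCl q | η ^ N = 1} :=
    (finite_setOf_pow_eq_one (PadicAlgCl q) hN).to_subtype
  exact IntermediateField.finiteDimensional_adjoin
    (fun x _ => (Algebra.IsAlgebraic.isAlgebraic x).isIntegral)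

/-- **MAIN (field form).** For every finite extension `E/ℚ_q` inside `ℚ̄_q` (every `q`, including
`q = p`) and every `r`: for all large `n`, `p ^ r` divides `[Gal(ℚ̄_q/E) : Gal(ℚ̄_q/E(μ_{p^n}))]`. -/
theorem exists_pow_dvd_relIndex_field {p : ℕ} (hp : p.Prime)
    (E : IntermediateField ℚ_[q] (PadicAlgCl q)) [FiniteDimensional ℚ_[q] E] (r : ℕ) :
    ∃ n₀, ∀ n ≥ n₀, p ^ r ∣
      ((E ⊔ localCyclo q (p ^ n)).fixingSubgroup).relIndex E.fixingSubgroup := by
  have hU0 : E.fixingSubgroup.index ≠ 0 := by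
    rw [← IntermediateField.finrank_eq_fixingSubgroup_index]
    exact Module.finrank_pos.ne'
  obtain ⟨n₀, hn₀⟩ :=
    exists_pow_dvd_index_levelStab q hp (r + padicValNat p E.fixingSubgroup.index)
  refine ⟨n₀, fun n hn => ?_⟩
  have h1 := Index.pow_dvd_relIndex hp (levelStab q (p ^ n)) E.fixingSubgroup hU0 (hn₀ n hn)
  rw [IntermediateField.fixingSubgroup_sup, fixingSubgroup_localCyclo q (pow_ne_zero n hp.ne_zero),
    inf_comm]
  exact h1

/-- **MAIN (degree form).** `p ^ r · [E : ℚ_q]` divides `[E(μ_{p^n}) : ℚ_q]` for all large `n`. -/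
theorem exists_pow_mul_finrank_dvd_finrank {p : ℕ} (hp : p.Prime)
    (E : IntermediateField ℚ_[q] (PadicAlgCl q)) [FiniteDimensional ℚ_[q] E] (r : ℕ) :
    ∃ n₀, ∀ n ≥ n₀, p ^ r * Module.finrank ℚ_[q] E ∣
      Module.finrank ℚ_[q] ↥(E ⊔ localCyclo q (p ^ n)) := by
  obtain ⟨n₀, hn₀⟩ := exists_pow_dvd_relIndex_field q hp E r
  refine ⟨n₀, fun n hn => ?_⟩
  rw [IntermediateField.finrank_eq_fixingSubgroup_index,
    IntermediateField.finrank_eq_fixingSubgroup_index,
    ← Subgroup.relIndex_mul_index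
      (IntermediateField.fixingSubgroup_antitone (le_sup_left : E ≤ E ⊔ localCyclo q (p ^ n)))]
  exact mul_dvd_mul_right (hn₀ n hn) _

/-! ### complements -/

/-- a Frobenius element of `G_q` in purely local terms: it raises every root of unity of `ℚ̄_q`
of order prime to `q` to its `q`-th power. -/
theorem exists_frobenius_on_roots :
    ∃ τ : Gq q, ∀ N : ℕ, ¬ q ∣ N → ∀ η : PadicAlgCl q, η ^ N = 1 → τ η = η ^ q := by
  obtain ⟨τ, hτ⟩ := exists_local_frobenius q
  refine ⟨τ, fun N hN η hη => ?_⟩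
  have hN0 : N ≠ 0 := fun h0 => hN (h0 ▸ dvd_zero q)
  obtain ⟨ζ, hζ, rfl⟩ := exists_padicEmbedding_eq_of_pow_eq_one q hN0 hη
  rw [← padicEmbedding_localGaloisToGlobal, hτ N hN ζ hζ, map_pow]

/-- `Gal(ℚ̄/ℚ(μ_N))` is normal in `Gal(ℚ̄/ℚ)` -/
instance fixingSubgroup_cycloField_normal (N : ℕ) : ((cycloField N).fixingSubgroup).Normal := by
  refine ⟨fun σ hσ g => ?_⟩
  rw [mem_fixingSubgroup_cycloField_iff] at hσ ⊢
  intro ζ hζ
  rw [AlgEquiv.mul_apply, AlgEquiv.mul_apply]
  have h1 : (g⁻¹ ζ) ^ N = 1 := by rw [← map_pow, hζ, map_one]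
  rw [hσ _ h1]
  exact AlgEquiv.apply_symm_apply g ζ

/-- the `p`-cyclotomic tower in `G_q` is decreasing -/
theorem levelStab_anti {M N : ℕ} (h : M ∣ N) : levelStab q N ≤ levelStab q M :=
  Subgroup.comap_mono (IntermediateField.fixingSubgroup_antitone (cycloField_mono h))

end Fermat.Agent.S55.CycloTower46.Local
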