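/-
S55 leaf 34-L / 34z (helper46), file 5: the global and local mod-`N` cyclotomic characters
`cycChar N : Gal(ℚ̄/ℚ) →* (ZMod N)ˣ`, `localCycChar q N : Gal(ℚ̄_q/ℚ_q) →* (ZMod N)ˣ`, their
compatibility under `localGaloisToGlobal q` (by definition + a uniqueness lemma, so that any
other definition of the local character plugs in), kernels, surjectivity (global: `Φ_N` irreducible
over `ℚ`; local at `p`: Eisenstein), values on Frobenius elements and on inertia at `q ∤ N`.
-/
import Mathlib
import Fermat.Agent.S55.UnrBridge42.MaxUnr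
import Fermat.Agent.S55.CycloTower46.Local

set_option autoImplicit false

open scoped Pointwise

namespace Fermat.Agent.S55.CycloTower46.Char

open Fermat.Agent.Lib.FrobeniusExists Fermat.Agent.S55.CycloTower46.Global
  Fermat.Agent.S55.CycloTower46.Local

attribute [local instance] isAlgebraic_Qb isAlgClosure_Qb isGalois_Qb

variable (N : ℕ) [NeZero N]

/-! ### the global character -/

theorem exists_isPrimitiveRoot_Qb : ∃ ζ : Qb, IsPrimitiveRoot ζ N :=
  HasEnoughRootsOfUnity.exists_primitiveRoot Qb N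

theorem card_rootsOfUnity_Qb : Nat.card (rootsOfUnity N Qb) = N :=
  (exists_isPrimitiveRoot_Qb N).choose_spec.card_rootsOfUnity

/-- **the global mod-`N` cyclotomic character** -/
noncomputable def cycChar : GQ →* (ZMod N)ˣ where
  toFun σ := modularCyclotomicCharacter Qb (card_rootsOfUnity_Qb N) σ.toRingEquiv
  map_one' := map_one _
  map_mul' σ τ := map_mul (modularCyclotomicCharacter Qb (card_rootsOfUnity_Qb N))
    σ.toRingEquiv τ.toRingEquiv

variable {N}

theorem cycChar_spec (σ : GQ) {ζ : Qb} (hζ : ζ ^ N = 1) :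
    σ ζ = ζ ^ ((cycChar N σ : (ZMod N)ˣ) : ZMod N).val := by
  have hu : IsUnit ζ := IsUnit.of_pow_eq_one hζ (NeZero.ne N)
  obtain ⟨t, rfl⟩ := hu
  have ht : t ∈ rootsOfUnity N Qb := by
    rw [mem_rootsOfUnity]
    exact Units.ext (by simpa using hζ)
  exact modularCyclotomicCharacter.spec Qb (card_rootsOfUnity_Qb N) σ.toRingEquiv ht

theorem cycChar_unique (σ : GQ) (c : ZMod N) (hc : ∀ ζ : Qb, ζ ^ N = 1 → σ ζ = ζ ^ c.val) :
    c = ((cycChar N σ : (ZMod N)ˣ) : ZMod N) := by
  refine modularCyclotomicCharacter.unique Qb (card_rootsOfUnity_Qb N) σ.toRingEquiv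
    (c := c) fun t ht => ?_
  rw [mem_rootsOfUnity] at ht
  have : ((t : Qb)) ^ N = 1 := by
    have := congrArg (fun u : Qbˣ => (u : Qb)) ht
    simpa using this
  exact hc _ this

/-- it suffices to test on one primitive root -/
theorem cycChar_unique_of_isPrimitiveRoot (σ : GQ) (c : ZMod N) {ζ₀ : Qb}
    (hζ₀ : IsPrimitiveRoot ζ₀ N) (hc : σ ζ₀ = ζ₀ ^ c.val) :
    c = ((cycChar N σ : (ZMod N)ˣ) : ZMod N) := by
  refine cycChar_unique σ c fun ζ hζ => ?_
  obtain ⟨i, -, rfl⟩ := hζ₀.eq_pow_of_pow_eq_one hζ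
  rw [map_pow, hc, ← pow_mul, ← pow_mul, mul_comm]

theorem cycChar_eq_one_iff {σ : GQ} :
    cycChar N σ = 1 ↔ ∀ ζ : Qb, ζ ^ N = 1 → σ ζ = ζ := by
  constructor
  · intro h ζ hζ
    have h1 := cycChar_spec σ hζ
    rw [h, Units.val_one] at h1
    obtain ⟨ζ₀, hζ₀⟩ := exists_isPrimitiveRoot_Qb N
    rcases Nat.lt_or_ge 1 N with hN | hN
    · have : Fact (1 < N) := ⟨hN⟩
      rwa [ZMod.val_one, pow_one] at h1
    · have hN1 : N = 1 := le_antisymm hN (Nat.one_le_iff_ne_zero.mpr (NeZero.ne N))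
      subst hN1
      have : ζ = 1 := by simpa using hζ
      rw [this, map_one]
  · intro h
    have := cycChar_unique σ 1 fun ζ hζ => by
      rw [h ζ hζ]
      rcases Nat.lt_or_ge 1 N with hN | hN
      · have : Fact (1 < N) := ⟨hN⟩
        rw [ZMod.val_one, pow_one]
      · have hN1 : N = 1 := le_antisymm hN (Nat.one_le_iff_ne_zero.mpr (NeZero.ne N))
        subst hN1
        have : ζ = 1 := by simpa using hζ
        rw [this, one_pow]
    exact Units.ext this.symm

/-- the kernel of the mod-`N` cyclotomic character is `Gal(ℚ̄/ℚ(μ_N))` -/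
theorem ker_cycChar : (cycChar N).ker = (cycloField N).fixingSubgroup := by
  ext σ
  rw [MonoidHom.mem_ker, cycChar_eq_one_iff, mem_fixingSubgroup_cycloField_iff]

/-- **the global cyclotomic character is surjective** (`Φ_N` is irreducible over `ℚ`) -/
theorem cycChar_surjective : Function.Surjective (cycChar N) := by
  intro u
  obtain ⟨ζ₀, hζ₀⟩ := exists_isPrimitiveRoot_Qb N
  have hpos : 0 < N := Nat.pos_of_ne_zero (NeZero.ne N)
  have h1 : IsPrimitiveRoot (ζ₀ ^ (u : ZMod N).val) N :=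
    hζ₀.pow_of_coprime _ (ZMod.val_coe_unit_coprime u)
  have e0 := Polynomial.cyclotomic_eq_minpoly_rat hζ₀ hpos
  have e1 := Polynomial.cyclotomic_eq_minpoly_rat h1 hpos
  have hconj : IsConjRoot ℚ (ζ₀ ^ (u : ZMod N).val) ζ₀ := by
    rw [isConjRoot_def, ← e0, ← e1]
  obtain ⟨σ, hσ⟩ := IsConjRoot.exists_algEquiv hconj
  refine ⟨σ, ?_⟩
  exact Units.ext (cycChar_unique_of_isPrimitiveRoot σ (u : ZMod N) hζ₀ hσ).symm

/-- compatibility of the cyclotomic characters in the tower -/
theorem cycChar_map {M : ℕ} [NeZero M] (h : N ∣ M) (σ : GQ) :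
    ZMod.unitsMap h (cycChar M σ) = cycChar N σ := by
  apply Units.ext
  refine cycChar_unique σ _ fun ζ hζ => ?_
  have hζM : ζ ^ M = 1 := by
    obtain ⟨k, rfl⟩ := h
    rw [pow_mul, hζ, one_pow]
  rw [cycChar_spec σ hζM, ZMod.unitsMap_def, Units.coe_map, MonoidHom.coe_coe,
    ZMod.castHom_apply, ZMod.cast_eq_val, ZMod.val_natCast, ← pow_eq_pow_mod _ hζ]

/-- **the value of the cyclotomic character on a Frobenius element at `q ∤ N` is `q`** -/
theorem cycChar_of_isFrobeniusAt {q : ℕ} (hq : q.Prime) (A : ValuationSubring Qb)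
    (hA : A.LiesOverPrime q) {σ : GQ} (h : A.IsFrobeniusAt σ q) (hN : ¬ q ∣ N) :
    ((cycChar N σ : (ZMod N)ˣ) : ZMod N) = (q : ZMod N) := by
  refine (cycChar_unique σ _ fun ζ hζ => ?_).symm
  rw [frobenius_rootOfUnity hq A hA h hN hζ, ZMod.val_natCast, ← pow_eq_pow_mod _ hζ]

/-- **the cyclotomic character mod `N` is unramified at `q ∤ N`** -/
theorem cycChar_of_mem_inertia {q : ℕ} (hq : q.Prime) (A : ValuationSubring Qb)
    (hA : A.LiesOverPrime q) {σ : GQ} (hσ : σ ∈ A.inertiaSubgroupIn ℚ) (hN : ¬ q ∣ N) :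
    cycChar N σ = 1 :=
  cycChar_eq_one_iff.mpr fun _ hζ => rootOfUnity_fixed_of_mem_inertia hq A hA hσ hN hζ

/-! ### the local character -/

/-- **the local mod-`N` cyclotomic character**, by definition the restriction of the global one
along `localGaloisToGlobal q`; see `localCycChar_spec`, `localCycChar_unique` for its intrinsic
characterisation on the roots of unity of `ℚ̄_q`. -/
noncomputable def localCycChar (q : ℕ) [Fact q.Prime] (N : ℕ) [NeZero N] : Gq q →* (ZMod N)ˣ :=
  (cycChar N).comp (localGaloisToGlobal q)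

variable (q : ℕ) [Fact q.Prime]

theorem localCycChar_apply (τ : Gq q) :
    localCycChar q N τ = cycChar N (localGaloisToGlobal q τ) := rfl

theorem localCycChar_spec (τ : Gq q) {η : PadicAlgCl q} (hη : η ^ N = 1) :
    τ η = η ^ ((localCycChar q N τ : (ZMod N)ˣ) : ZMod N).val := by
  obtain ⟨ζ, hζ, rfl⟩ := exists_padicEmbedding_eq_of_pow_eq_one q (NeZero.ne N) hη
  rw [← padicEmbedding_localGaloisToGlobal, ← map_pow]
  congr 1
  exact cycChar_spec _ hζ

/-- **local/global compatibility in intrinsic form**: any `c` describing the action of `τ` on the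
`N`-th roots of unity of `ℚ̄_q` is the global cyclotomic character of `localGaloisToGlobal q τ`. -/
theorem localCycChar_unique (τ : Gq q) (c : ZMod N)
    (hc : ∀ η : PadicAlgCl q, η ^ N = 1 → τ η = η ^ c.val) :
    c = ((localCycChar q N τ : (ZMod N)ˣ) : ZMod N) := by
  refine cycChar_unique _ c fun ζ hζ => ?_
  apply Fermat.Agent.S55.ProfinLoc80.padicEmbedding_injective q
  rw [padicEmbedding_localGaloisToGlobal, map_pow]
  exact hc _ (by rw [← map_pow, hζ, map_one])

theorem localCycChar_unique_of_isPrimitiveRoot (τ : Gq q) (c : ZMod N) {η₀ : PadicAlgCl q}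
    (hη₀ : IsPrimitiveRoot η₀ N) (hc : τ η₀ = η₀ ^ c.val) :
    c = ((localCycChar q N τ : (ZMod N)ˣ) : ZMod N) := by
  refine localCycChar_unique q τ c fun η hη => ?_
  obtain ⟨i, -, rfl⟩ := hη₀.eq_pow_of_pow_eq_one hη
  rw [map_pow, hc, ← pow_mul, ← pow_mul, mul_comm]

/-- comparison with Mathlib's `modularCyclotomicCharacter` of the field `ℚ̄_q` -/
theorem localCycChar_eq_modularCyclotomicCharacter
    (hn : Nat.card (rootsOfUnity N (PadicAlgCl q)) = N) (τ : Gq q) :
    modularCyclotomicCharacter (PadicAlgCl q) hn τ.toRingEquiv = localCycChar q N τ := by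
  refine Units.ext (modularCyclotomicCharacter.unique (PadicAlgCl q) hn τ.toRingEquiv
    (c := ((localCycChar q N τ : (ZMod N)ˣ) : ZMod N)) fun t ht => ?_).symm
  rw [mem_rootsOfUnity] at ht
  have h1 : ((t : PadicAlgCl q)) ^ N = 1 := by
    have := congrArg (fun u : (PadicAlgCl q)ˣ => (u : PadicAlgCl q)) ht
    simpa using this
  exact localCycChar_spec q τ h1

/-- the kernel of the local cyclotomic character is the stabiliser of `μ_N` -/
theorem ker_localCycChar : (localCycChar q N).ker = levelStab q N := by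
  rw [localCycChar, ← MonoidHom.comap_ker, ker_cycChar]
  rfl

theorem ker_localCycChar_eq_fixingSubgroup :
    (localCycChar q N).ker = (localCyclo q N).fixingSubgroup := by
  rw [ker_localCycChar, fixingSubgroup_localCyclo q (NeZero.ne N)]

theorem localCycChar_eq_one_iff {τ : Gq q} :
    localCycChar q N τ = 1 ↔ ∀ η : PadicAlgCl q, η ^ N = 1 → τ η = η := by
  rw [← MonoidHom.mem_ker, ker_localCycChar_eq_fixingSubgroup, mem_fixingSubgroup_localCyclo_iff]

/-- **`q ∤ N`: the value of the local cyclotomic character on a Frobenius lift is `q`** -/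
theorem localCycChar_frobenius {τ : Gq q}
    (hτ : ∀ η : PadicAlgCl q, η ^ N = 1 → τ η = η ^ q) :
    ((localCycChar q N τ : (ZMod N)ˣ) : ZMod N) = (q : ZMod N) := by
  refine (localCycChar_unique q τ _ fun η hη => ?_).symm
  rw [hτ η hη, ZMod.val_natCast, ← pow_eq_pow_mod _ hη]

/-- **`q ∤ N`: the local cyclotomic character mod `N` is unramified** (trivial on the inertia
subgroup of `G_q`). -/
theorem localCycChar_of_mem_localInertia (hN : ¬ q ∣ N) {τ : Gq q}
    (hτ : τ ∈ Fermat.Agent.S55.UnrBridge42.localInertia q) : localCycChar q N τ = 1 := by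
  have hq : q.Prime := Fact.out
  rw [localCycChar_eq_one_iff]
  intro η hη
  have h1 := Fermat.Agent.S55.UnrBridge42.localInertia_le_fixingSubgroup_maxUnr q hτ
  rw [IntermediateField.mem_fixingSubgroup_iff] at h1
  refine h1 η (Fermat.Agent.S55.UnrBridge42.mem_maxUnr_of_pow_eq_one q
    (Nat.pos_of_ne_zero (NeZero.ne N)) ?_ hη)
  exact ((Nat.Prime.coprime_iff_not_dvd hq).mpr hN).symm

/-- `ℚ_q(μ_N)` is unramified over `ℚ_q` for `q ∤ N` -/
theorem localCyclo_le_maxUnr (hN : ¬ q ∣ N) :
    localCyclo q N ≤ Fermat.Agent.S55.UnrBridge42.maxUnr q := by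
  have hq : q.Prime := Fact.out
  refine IntermediateField.adjoin_le_iff.mpr fun η hη => ?_
  exact Fermat.Agent.S55.UnrBridge42.mem_maxUnr_of_pow_eq_one q
    (Nat.pos_of_ne_zero (NeZero.ne N)) ((Nat.Prime.coprime_iff_not_dvd hq).mpr hN).symm hη

/-- **the local cyclotomic character at `p` mod `p^(n+1)` is surjective** (total ramification,
via Eisenstein). -/
theorem localCycChar_surjective_prime_pow (p : ℕ) [Fact p.Prime] (n : ℕ) :
    Function.Surjective (localCycChar p (p ^ (n + 1))) := by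
  intro u
  obtain ⟨ζ₀, hζ₀⟩ := exists_isPrimitiveRoot_Qb (p ^ (n + 1))
  have hη₀ : IsPrimitiveRoot (padicEmbedding p ζ₀) (p ^ (n + 1)) :=
    hζ₀.map_of_injective (Fermat.Agent.S55.ProfinLoc80.padicEmbedding_injective p)
  have h1 : IsPrimitiveRoot ((padicEmbedding p ζ₀) ^ (u : ZMod (p ^ (n + 1))).val)
      (p ^ (n + 1)) :=
    hη₀.pow_of_coprime _ (ZMod.val_coe_unit_coprime u)
  obtain ⟨τ, hτ⟩ := exists_algEquiv_primitiveRoot p n hη₀ h1
  exact ⟨τ, Units.ext (localCycChar_unique_of_isPrimitiveRoot p τ _ hη₀ hτ).symm⟩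

end Fermat.Agent.S55.CycloTower46.Char
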