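/-
S55 / 52c-HSURJ-ARITH (helper46): the TOWER-SPLIT argument, abstract form.

Let `𝒰` be a level structure on `G`, `A` a smooth module whose finite layers `H²(G ⧸ V, A^V)` are
cyclic of order `[G : V]` (local class field theory) and satisfy Hilbert 90.  Then every class of
`𝒰.H2 A` killed by `d` is inflated from ANY level `U` with `d ∣ [G : U]`.

Pure algebra on top of helper49's `LevelColim49` (inflation / transition maps), helper9's
`InfRes9.ResKill` (`|G| • H² = 0`) and helper71's `IsCyclicH2Level`.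
-/
import Fermat.Agent.S55.LevelColim49.InfRes
import Fermat.Agent.S55.InfRes9.ResKill
import Fermat.Agent.S55.CDKummer71.H2Div

set_option autoImplicit false

universe u

open CategoryTheory groupCohomology Limits

noncomputable section

namespace Fermat.Agent.S55.CycloTower46.Split

open Fermat.Agent.S55.Profin15 Fermat.Agent.S55.LevelColim49 Fermat.Agent.S55.CDKummer71
  Fermat.Agent.S55.ProfinGlobal22

/-! ### a lemma on cyclic groups -/

/-- Let `f : Y → X` be an injective homomorphism between cyclic groups of exact orders `NY`, `NX`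
(generated by `γY`, `γX`).  Every `x : X` killed by a divisor `d` of `NY` lies in the image of `f`
(the subgroup of order `NY` of a cyclic group contains all elements of order dividing `NY`). -/
theorem exists_map_eq_of_cyclic {X Y : Type*} [AddCommGroup X] [AddCommGroup Y] (f : Y →+ X)
    (hf : Function.Injective f) {NX NY : ℕ} (hNY : NY ≠ 0)
    (γX : X) (hXgen : ∀ x : X, ∃ j : ℤ, x = j • γX)
    (hXord : ∀ j : ℤ, j • γX = 0 → (NX : ℤ) ∣ j) (hXkill : NX • γX = 0)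
    (γY : Y) (hYord : ∀ j : ℤ, j • γY = 0 → (NY : ℤ) ∣ j)
    {d : ℕ} (hd : d ∣ NY) (x : X) (hx : d • x = 0) : ∃ y : Y, f y = x := by
  obtain ⟨a, ha⟩ := hXgen (f γY)
  obtain ⟨j, rfl⟩ := hXgen x
  -- `NX ∣ NY * j`
  have h1 : (NX : ℤ) ∣ (NY : ℤ) * j := by
    obtain ⟨d', rfl⟩ := hd
    have h0 : ((d : ℤ) * j) • γX = 0 := by rw [mul_smul, natCast_zsmul]; exact hx
    have h := hXord _ h0
    have e : (((d * d' : ℕ) : ℤ)) * j = (d' : ℤ) * ((d : ℤ) * j) := by push_cast; ring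
    rw [e]
    exact Dvd.dvd.mul_left h _
  -- `NX ∣ t * a → NY ∣ t`
  have h2 : ∀ t : ℤ, (NX : ℤ) ∣ t * a → (NY : ℤ) ∣ t := by
    intro t ht
    apply hYord
    apply hf
    rw [map_zsmul, ha, map_zero, ← mul_smul]
    obtain ⟨c, hc⟩ := ht
    rw [hc, mul_comm, mul_smul, natCast_zsmul, hXkill, smul_zero]
  obtain ⟨a', ha'⟩ := Int.gcd_dvd_left a (NX : ℤ)
  obtain ⟨n', hn'⟩ := Int.gcd_dvd_right a (NX : ℤ)
  have h3 : (NY : ℤ) ∣ n' := h2 n' ⟨a', by rw [hn']; nth_rewrite 1 [ha']; ring⟩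
  obtain ⟨k, hk⟩ := h3
  -- `gcd ∣ j`
  have h4 : ((Int.gcd a (NX : ℤ) : ℕ) : ℤ) ∣ j := by
    have h5 : (NY : ℤ) * (((Int.gcd a (NX : ℤ) : ℕ) : ℤ) * k) ∣ (NY : ℤ) * j := by
      have e : (NY : ℤ) * (((Int.gcd a (NX : ℤ) : ℕ) : ℤ) * k) = (NX : ℤ) := by
        nth_rewrite 2 [hn']
        rw [hk]; ring
      rw [e]; exact h1
    have h6 := Int.dvd_of_mul_dvd_mul_left (by exact_mod_cast hNY) h5
    exact (Dvd.intro _ rfl).trans h6
  obtain ⟨j', rfl⟩ := h4
  have hb : ((Int.gcd a (NX : ℤ) : ℕ) : ℤ) = a * Int.gcdA a NX + NX * Int.gcdB a NX :=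
    Int.gcd_eq_gcd_ab a NX
  refine ⟨(Int.gcdA a NX * j') • γY, ?_⟩
  rw [map_zsmul, ha, ← mul_smul]
  have e : ((Int.gcd a (NX : ℤ) : ℕ) : ℤ) * j' =
      Int.gcdA a NX * j' * a + (Int.gcdB a NX * j') * (NX : ℤ) := by rw [hb]; ring
  rw [e, add_smul, mul_smul (Int.gcdB a NX * j') (NX : ℤ), natCast_zsmul, hXkill, smul_zero,
    add_zero]

/-! ### the tower-split theorem -/

variable {k G : Type u} [CommRing k] [Group G] (A : Rep.{u, u, u} k G) (𝒰 : LevelStr G)

/-- **TOWER-SPLIT (class form).**  If all finite layers of the smooth module `A` satisfy Hilbert 90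
and have cyclic `H²` of order the index, then every class of `𝒰.H2 A` killed by `d` is inflated
from any level `U` whose index is divisible by `d`. -/
theorem exists_infl₂_eq_of_nsmul_eq_zero (hA : 𝒰.IsSmooth A)
    (h1 : ∀ (U V : Subgroup G) [U.Normal] [V.Normal], U ∈ 𝒰.levels → V ∈ 𝒰.levels → V ≤ U →
      IsZero (groupCohomology (Rep.res (quotSub U V).subtype (layer A V)) 1))
    (hcyc : ∀ (V : Subgroup G) [V.Normal], V ∈ 𝒰.levels →
      IsCyclicH2Level A V (Nat.card (G ⧸ V)))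
    {U : Subgroup G} [U.Normal] (hU : U ∈ 𝒰.levels) {d : ℕ} (hd : d ∣ Nat.card (G ⧸ U))
    (x : 𝒰.H2 A) (hx : d • x = 0) : ∃ y : H2 (layer A U), infl₂ A 𝒰 hU y = x := by
  obtain ⟨V, hVn, hV, hVU, yV, rfl⟩ := exists_infl₂_eq 𝒰 hA x hU
  have hinj : Function.Injective (infl₂ A 𝒰 hV) :=
    infl₂_injective 𝒰 hA hV (fun W _ hW hWV => h1 V W hV hW hWV)
  have hdy : d • yV = 0 := hinj (by rw [map_nsmul, hx, map_zero])
  obtain ⟨γX, hXgen, hXord⟩ := hcyc V hV
  obtain ⟨γY, -, hYord⟩ := hcyc U hU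
  have hfV : Finite (G ⧸ V) := by
    have := 𝒰.finiteIndex V hV
    exact Subgroup.finite_quotient_of_finiteIndex
  have hfU : Finite (G ⧸ U) := by
    have := 𝒰.finiteIndex U hU
    exact Subgroup.finite_quotient_of_finiteIndex
  obtain ⟨y, hy⟩ := exists_map_eq_of_cyclic (trans₂ A hVU).toAddMonoidHom
    (trans₂_injective A hVU (h1 U V hU hV hVU)) (Nat.card_pos (α := G ⧸ U)).ne'
    γX hXgen hXord (InfRes9.card_smul_eq_zero_two (layer A V) γX) γY hYord hd yV hdy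
  exact ⟨y, by rw [← infl₂_trans₂ A 𝒰 hU hV hVU]; exact congrArg _ hy⟩

/-- **TOWER-SPLIT (cochain form).**  Same hypotheses; a level `2`-cocycle `c` whose class is killed
by `d` is cohomologous (by a level `1`-cochain `b`) to a cocycle which is constant modulo `U` and
has `U`-invariant values, for any level `U` whose index is divisible by `d`. -/
theorem exists_sub_d₁₂_const (hA : 𝒰.IsSmooth A)
    (h1 : ∀ (U V : Subgroup G) [U.Normal] [V.Normal], U ∈ 𝒰.levels → V ∈ 𝒰.levels → V ≤ U →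
      IsZero (groupCohomology (Rep.res (quotSub U V).subtype (layer A V)) 1))
    (hcyc : ∀ (V : Subgroup G) [V.Normal], V ∈ 𝒰.levels →
      IsCyclicH2Level A V (Nat.card (G ⧸ V)))
    {U : Subgroup G} [U.Normal] (hU : U ∈ 𝒰.levels) {d : ℕ} (hd : d ∣ Nat.card (G ⧸ U))
    (c : ↥(𝒰.Z₂ A)) (hx : d • 𝒰.H2π A c = 0) :
    ∃ b : G → A, 𝒰.IsConst₁ b ∧
      (∀ g g' s s', s ∈ U → s' ∈ U →
        ((c : G × G → A) - (d₁₂ A).hom b) (g * s, g' * s') =
          ((c : G × G → A) - (d₁₂ A).hom b) (g, g')) ∧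
      ∀ z, ∀ s ∈ U, A.ρ s (((c : G × G → A) - (d₁₂ A).hom b) z) =
        ((c : G × G → A) - (d₁₂ A).hom b) z := by
  obtain ⟨y, hy⟩ := exists_infl₂_eq_of_nsmul_eq_zero A 𝒰 hA h1 hcyc hU hd _ hx
  obtain ⟨y', rfl⟩ := H2π_surjective (layer A U) y
  rw [infl₂_H2π] at hy
  have h0 : 𝒰.H2π A (c - inflZ₂ A 𝒰 hU y') = 0 := by rw [map_sub, hy, sub_self]
  rw [LevelStr.H2π_eq_zero_iff, LevelStr.mem_B₂_iff] at h0
  obtain ⟨b, hb, hdb⟩ := h0
  have e : (c : G × G → A) - (d₁₂ A).hom b = inflFun₂ A U (y' : (G ⧸ U) × (G ⧸ U) → layer A U) := by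
    rw [hdb]
    show (c : G × G → A) - ((c : G × G → A) - inflFun₂ A U _) = _
    abel
  refine ⟨b, hb, fun g g' s s' hs hs' => ?_, fun z s hs => ?_⟩
  · rw [e]; exact inflFun₂_const A U _ g g' s s' hs hs'
  · rw [e]; exact incl_fixed A U _ s hs

end Fermat.Agent.S55.CycloTower46.Split
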