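/-
S55 / 52c-HSURJ-ARITH (helper46): the TOWER-SPLIT argument for the local Brauer groups.

For an open subgroup `V` of the local Galois group `G_q` (helper71's vocabulary: `GalQ q`,
`lev q = pullLevels (localGaloisToGlobal q)`, `Om q`, `unitsRep ↥V (Om q)`) containing the
pull-back of an `S`-level, `p ∈ S`: every class of `H²(V, ℚ̄_qˣ)` (full level structure) killed by
`p ^ n` is inflated from the pull-back of an `S`-level, i.e. it is split by the completion of the
maximal extension unramified outside `S`.  This is the arithmetic half of `hsurj` of the limit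
formation datum: `p^∞` divides the local degrees of `ℚ_S` (the cyclotomic `ℤ_p`-tower,
`CycloTower46.Local`), and the finite layers have cyclic `H²` of order the degree
(`P2Local71.LocalLayerCoh q`, the local input of P2).
-/
import Fermat.Agent.S55.CycloTower46.Split
import Fermat.Agent.S55.CycloTower46.Local
import Fermat.Agent.S55.P2Local71.Layer
import Fermat.Agent.S55.LocDev51.LevelAdapt

set_option autoImplicit false

open CategoryTheory groupCohomology Limits

noncomputable section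

namespace Fermat.Agent.S55.CycloTower46.SplitLocal

open Fermat.Agent.S55.Profin15 Fermat.Agent.S55.LevelColim49 Fermat.Agent.S55.CDKummer71
  Fermat.Agent.S55.LocDev51 Fermat.Agent.S55.P2Local71
open Fermat.Agent.Lib.FrobeniusExists (Qb GQ)

attribute [local instance] Units.mulDistribMulActionRight
attribute [local instance] quotAction

/-- the identity isomorphism `Res_H (unitsRep Q E) ≅ unitsRep H E` -/
def resUnitsIso {Q E : Type} [Group Q] [Field E] [MulSemiringAction Q E] (H : Subgroup Q) :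
    Rep.res H.subtype (unitsRep Q E) ≅ unitsRep ↥H E :=
  Rep.mkIso (Representation.Equiv.mk (LinearEquiv.refl ℤ (Additive Eˣ)) (fun _ => rfl))

variable {q : ℕ} [Fact q.Prime]

/-! ### Hilbert 90 on the sub-layers -/

/-- the finite quotient `V ⧸ W` (and each of its subgroups) acts faithfully on `Ω^W` -/
theorem faithful_layer (V : Subgroup (GalQ q)) (hV : CD3.IsOpenSub (lev q) V) (W : Subgroup ↥V)
    (hW : W ∈ (CD3.restrictLevels (lev q) V hV).levels) [W.Normal] (H : Subgroup (↥V ⧸ W)) :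
    FaithfulSMul ↥H (fixedField ↥V (Om q) W) := by
  obtain ⟨U₃, hU₃, hle, rfl⟩ := hW
  obtain ⟨E, hfd, hnE, rfl⟩ := exists_levelField hU₃
  refine ⟨fun {a b} hab => ?_⟩
  obtain ⟨a, ha⟩ := a
  obtain ⟨b, hb⟩ := b
  apply Subtype.ext
  show a = b
  induction a using QuotientGroup.induction_on with
  | H v =>
    induction b using QuotientGroup.induction_on with
    | H w =>
      rw [QuotientGroup.eq, Subgroup.mem_subgroupOf, IntermediateField.mem_fixingSubgroup_iff]
      intro x hx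
      have hxF : x ∈ fixedField ↥V (Om q) (E.fixingSubgroup.subgroupOf V) :=
        (mem_fixedField_iff_mem V E hle x).2 hx
      have h1 := congrArg Subtype.val (hab ⟨x, hxF⟩)
      have h2 : (v : GalQ q) x = (w : GalQ q) x := h1
      show ((v⁻¹ * w : ↥V) : GalQ q) x = x
      rw [Subgroup.coe_mul, Subgroup.coe_inv, AlgEquiv.mul_apply, ← h2]
      exact AlgEquiv.symm_apply_apply (v : GalQ q) x

/-- **Hilbert 90 on the sub-layers**: `H¹(H, (Ω^W)ˣ) = 0` for every subgroup `H` of the finite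
quotient `V ⧸ W`. -/
theorem isZero_H1_res_layer (V : Subgroup (GalQ q)) (hV : CD3.IsOpenSub (lev q) V)
    (W : Subgroup ↥V) (hW : W ∈ (CD3.restrictLevels (lev q) V hV).levels) [W.Normal]
    (H : Subgroup (↥V ⧸ W)) :
    IsZero (groupCohomology (Rep.res H.subtype (layer (unitsRep ↥V (Om q)) W)) 1) := by
  have := (CD3.restrictLevels (lev q) V hV).finiteIndex W hW
  have : Finite (↥V ⧸ W) := Subgroup.finite_quotient_of_finiteIndex
  have := faithful_layer V hV W hW H
  have iso : Rep.res H.subtype (layer (unitsRep ↥V (Om q)) W) ≅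
      unitsRep ↥H (fixedField ↥V (Om q) W) :=
    (Rep.resFunctor H.subtype).mapIso (quotIso ↥V (Om q) W) ≪≫ resUnitsIso H
  exact IsZero.of_iso (LocDev51.isZero_H1 ↥H (fixedField ↥V (Om q) W))
    ((groupCohomology.functor ℤ ↥H 1).mapIso iso)

/-! ### `S`-levels with large `p`-part of the local index -/

/-- an `S`-level is a level -/
theorem mem_allLevels_of_mem_globalLevels {S : Finset Nat.Primes} {U : Subgroup GQ}
    (hU : U ∈ (globalLevels S).levels) : U ∈ allLevels.levels := by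
  obtain ⟨hn, F, hF, rfl⟩ := hU
  exact ⟨hn, F, hF.1, rfl⟩

/-- the pull-back of an `S`-level `U₀` with `r⁻¹ U₀ ≤ V` is a restricted level of `V` -/
theorem comap_subgroupOf_mem_levels {S : Finset Nat.Primes} (V : Subgroup (GalQ q))
    (hV : CD3.IsOpenSub (lev q) V) {U₀ : Subgroup GQ} (hU₀ : U₀ ∈ (globalLevels S).levels)
    (hle : U₀.comap (localGaloisToGlobal q) ≤ V) :
    (U₀.comap (localGaloisToGlobal q)).subgroupOf V ∈ (CD3.restrictLevels (lev q) V hV).levels :=
  ⟨U₀.comap (localGaloisToGlobal q),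
    LevelStr.mem_comap_levels.2 ⟨U₀, mem_allLevels_of_mem_globalLevels hU₀, rfl⟩, hle, rfl⟩

/-- **`p^∞` divides the local degrees of `ℚ_S`, `p ∈ S`**: below any `S`-level `U₁` whose pull-back
lies in the open subgroup `V ≤ G_q` there is an `S`-level `U₀` with `p ^ n ∣ [V : r⁻¹ U₀]`. -/
theorem exists_sLevel_pow_dvd {p : ℕ} (hp : p.Prime) (S : Finset Nat.Primes)
    (hpS : (⟨p, hp⟩ : Nat.Primes) ∈ S) (V : Subgroup (GalQ q)) {U₁ : Subgroup GQ}
    (hU₁ : U₁ ∈ (globalLevels S).levels) (hU₁V : U₁.comap (localGaloisToGlobal q) ≤ V) (n : ℕ) :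
    ∃ U₀ ∈ (globalLevels S).levels, U₀ ≤ U₁ ∧
      p ^ n ∣ ((U₀.comap (localGaloisToGlobal q)).subgroupOf V).index := by
  obtain ⟨hU₁n, F₁, hF₁, rfl⟩ := hU₁
  have hfd := hF₁.1
  have hV0 : V.index ≠ 0 := by
    have h1 : ((F₁.fixingSubgroup).comap (localGaloisToGlobal q)).FiniteIndex :=
      ⟨Local.index_comap_fixingSubgroup_ne_zero q F₁⟩
    exact (Subgroup.finiteIndex_of_le hU₁V).index_ne_zero
  obtain ⟨n₀, hn₀⟩ := Local.exists_pow_dvd_index_levelStab q hp (n + padicValNat p V.index)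
  have hdvd : p ^ n ∣ (Local.levelStab q (p ^ n₀) ⊓ V).relIndex V :=
    Index.pow_dvd_relIndex hp _ V hV0 (hn₀ n₀ le_rfl)
  have hcyc : (Global.cycloField (p ^ n₀)).IsUnramifiedOutside S :=
    Global.cycloField_prime_pow_isUnramifiedOutside S ⟨p, hp⟩ hpS n₀
  refine ⟨(F₁ ⊔ Global.cycloField (p ^ n₀)).fixingSubgroup, ⟨?_, _, hF₁.sup hcyc, rfl⟩, ?_, ?_⟩
  · rw [IntermediateField.fixingSubgroup_sup]
    exact Subgroup.normal_inf_normal _ _
  · exact IntermediateField.fixingSubgroup_antitone le_sup_left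
  · refine hdvd.trans (Subgroup.relIndex_dvd_of_le_left V ?_)
    rw [IntermediateField.fixingSubgroup_sup, Subgroup.comap_inf]
    exact le_inf inf_le_right (inf_le_left.trans hU₁V)

/-! ### the tower-split theorem for the local Brauer groups -/

/-- **TOWER-SPLIT, local class form.**  `p ∈ S`, `V ≤ G_q` open containing the pull-back of the
`S`-level `U₁`.  Every class of `H²(V, ℚ̄_qˣ)` killed by `p ^ n` is inflated from the finite layer
`V ⧸ (V ∩ r⁻¹ U₀)` of an `S`-level `U₀ ≤ U₁`. -/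
theorem exists_infl₂_eq_of_pow_nsmul_eq_zero {p : ℕ} (hp : p.Prime) (S : Finset Nat.Primes)
    (hpS : (⟨p, hp⟩ : Nat.Primes) ∈ S) (hL : LocalLayerCoh q) (V : Subgroup (GalQ q))
    (hV : CD3.IsOpenSub (lev q) V) {U₁ : Subgroup GQ} (hU₁ : U₁ ∈ (globalLevels S).levels)
    (hU₁V : U₁.comap (localGaloisToGlobal q) ≤ V) (n : ℕ)
    (x : (CD3.restrictLevels (lev q) V hV).H2 (unitsRep ↥V (Om q))) (hx : p ^ n • x = 0) :
    ∃ (U₀ : Subgroup GQ) (hU₀ : U₀ ∈ (globalLevels S).levels) (hle : U₀ ≤ U₁),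
      letI := (CD3.restrictLevels (lev q) V hV).normal _
        (comap_subgroupOf_mem_levels V hV hU₀ ((Subgroup.comap_mono hle).trans hU₁V))
      ∃ y : H2 (layer (unitsRep ↥V (Om q)) ((U₀.comap (localGaloisToGlobal q)).subgroupOf V)),
        infl₂ (unitsRep ↥V (Om q)) (CD3.restrictLevels (lev q) V hV)
          (comap_subgroupOf_mem_levels V hV hU₀ ((Subgroup.comap_mono hle).trans hU₁V)) y = x := by
  obtain ⟨U₀, hU₀, hle, hdvd⟩ := exists_sLevel_pow_dvd hp S hpS V hU₁ hU₁V n
  have hmem := comap_subgroupOf_mem_levels V hV hU₀ ((Subgroup.comap_mono hle).trans hU₁V)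
  have hn := (CD3.restrictLevels (lev q) V hV).normal _ hmem
  refine ⟨U₀, hU₀, hle, ?_⟩
  rw [Subgroup.index_eq_card] at hdvd
  exact Split.exists_infl₂_eq_of_nsmul_eq_zero (unitsRep ↥V (Om q))
    (CD3.restrictLevels (lev q) V hV) (isSmoothRep_units V hV)
    (fun U W _ _ _ hW _ => isZero_H1_res_layer V hV W hW (quotSub U W))
    (fun W _ hW => isCyclicH2Level_of_layerCoh hL V hV W hW) hmem hdvd x hx

/-- **TOWER-SPLIT, local cochain form.**  A level `2`-cocycle `c` of `V` with values in `ℚ̄_qˣ`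
whose class is killed by `p ^ n` is cohomologous, by a level `1`-cochain `b`, to a cocycle which
is constant modulo, and has values fixed by, the pull-back of ONE `S`-level `U₀ ≤ U₁`. -/
theorem exists_sub_d₁₂_sLevel {p : ℕ} (hp : p.Prime) (S : Finset Nat.Primes)
    (hpS : (⟨p, hp⟩ : Nat.Primes) ∈ S) (hL : LocalLayerCoh q) (V : Subgroup (GalQ q))
    (hV : CD3.IsOpenSub (lev q) V) {U₁ : Subgroup GQ} (hU₁ : U₁ ∈ (globalLevels S).levels)
    (hU₁V : U₁.comap (localGaloisToGlobal q) ≤ V) (n : ℕ)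
    (c : ↥((CD3.restrictLevels (lev q) V hV).Z₂ (unitsRep ↥V (Om q))))
    (hx : p ^ n • (CD3.restrictLevels (lev q) V hV).H2π (unitsRep ↥V (Om q)) c = 0) :
    ∃ U₀ ∈ (globalLevels S).levels, U₀ ≤ U₁ ∧
      ∃ b : ↥V → unitsRep ↥V (Om q), (CD3.restrictLevels (lev q) V hV).IsConst₁ b ∧
        (∀ g g' s s' : ↥V, localGaloisToGlobal q (s : GalQ q) ∈ U₀ →
          localGaloisToGlobal q (s' : GalQ q) ∈ U₀ →
          ((c : ↥V × ↥V → unitsRep ↥V (Om q)) - (d₁₂ (unitsRep ↥V (Om q))).hom b)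
              (g * s, g' * s') =
            ((c : ↥V × ↥V → unitsRep ↥V (Om q)) - (d₁₂ (unitsRep ↥V (Om q))).hom b) (g, g')) ∧
        ∀ z, ∀ s : ↥V, localGaloisToGlobal q (s : GalQ q) ∈ U₀ →
          (unitsRep ↥V (Om q)).ρ s
              (((c : ↥V × ↥V → unitsRep ↥V (Om q)) - (d₁₂ (unitsRep ↥V (Om q))).hom b) z) =
            ((c : ↥V × ↥V → unitsRep ↥V (Om q)) - (d₁₂ (unitsRep ↥V (Om q))).hom b) z := by
  obtain ⟨U₀, hU₀, hle, hdvd⟩ := exists_sLevel_pow_dvd hp S hpS V hU₁ hU₁V n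
  have hmem := comap_subgroupOf_mem_levels V hV hU₀ ((Subgroup.comap_mono hle).trans hU₁V)
  have hn := (CD3.restrictLevels (lev q) V hV).normal _ hmem
  rw [Subgroup.index_eq_card] at hdvd
  obtain ⟨b, hb, h1, h2⟩ := Split.exists_sub_d₁₂_const (unitsRep ↥V (Om q))
    (CD3.restrictLevels (lev q) V hV) (isSmoothRep_units V hV)
    (fun U W _ _ _ hW _ => isZero_H1_res_layer V hV W hW (quotSub U W))
    (fun W _ hW => isCyclicH2Level_of_layerCoh hL V hV W hW) hmem hdvd c hx
  exact ⟨U₀, hU₀, hle, b, hb,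
    fun g g' s s' hs hs' => h1 g g' s s' (Subgroup.mem_subgroupOf.2 hs)
      (Subgroup.mem_subgroupOf.2 hs'),
    fun z s hs => h2 z s (Subgroup.mem_subgroupOf.2 hs)⟩

end Fermat.Agent.S55.CycloTower46.SplitLocal
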