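/-
S55 / 52c-HSURJ-ARITH (helper46): helper94's named input `GlobalMod94.OpenJS.TowerSplit p S q`
(the arithmetic half of `hsurj` of the limit formation datum), LITERALLY, from
`P2Local71.LocalLayerCoh q` (the local input of P2: cyclic `H²` of the finite local layers) and the
cyclotomic `ℤ_p`-tower (`CycloTower46.Local`).

Only the change of vocabulary is done here: `(pullLevels r).comap Γw.subtype` versus
`CD3.restrictLevels (lev q) Γw hV` (same level-constant cochains), and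
`Rep.res Γw.subtype (localUnits q) = LocDev51.unitsRep ↥Γw (Om q)` (by `rfl`).
-/
import Fermat.Agent.S55.CycloTower46.SplitLocal
import Fermat.Agent.S55.GlobalMod94.OpenJS
import Fermat.Agent.S55.LocDev51.AbsClass

set_option autoImplicit false

open CategoryTheory groupCohomology Limits

noncomputable section

namespace Fermat.Agent.S55.CycloTower46.TowerSplit

open Fermat.Agent.S55.Profin15 Fermat.Agent.S55.LocDev51 Fermat.Agent.S55.P2Local71
open Fermat.Agent.Lib.FrobeniusExists (Qb GQ)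

attribute [local instance] Units.mulDistribMulActionRight

variable {q : ℕ} [Fact q.Prime]

/-! ### the two restricted level structures have the same level-constant cochains -/

section Levels

variable {G : Type} [Group G] (𝒰 : LevelStr G) (V : Subgroup G) (hV : CD3.IsOpenSub 𝒰 V)

theorem isConst₁_restrict_iff {X : Type*} (f : ↥V → X) :
    (CD3.restrictLevels 𝒰 V hV).IsConst₁ f ↔ (𝒰.comap V.subtype).IsConst₁ f := by
  constructor
  · rintro ⟨W, ⟨U, hU, -, rfl⟩, h⟩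
    exact ⟨U.comap V.subtype, ⟨U, hU, rfl⟩, h⟩
  · rintro ⟨W, ⟨U, hU, rfl⟩, h⟩
    obtain ⟨U₀, hU₀, hle₀⟩ := hV
    obtain ⟨U', hU', hle⟩ := 𝒰.directed U hU U₀ hU₀
    refine ⟨U'.subgroupOf V, ⟨U', hU', (hle.trans inf_le_right).trans hle₀, rfl⟩,
      fun g s hs => h g s ?_⟩
    exact (hle.trans inf_le_left) (Subgroup.mem_subgroupOf.1 hs)

theorem isConst₂_restrict_iff {X : Type*} (f : ↥V × ↥V → X) :
    (CD3.restrictLevels 𝒰 V hV).IsConst₂ f ↔ (𝒰.comap V.subtype).IsConst₂ f := by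
  constructor
  · rintro ⟨W, ⟨U, hU, -, rfl⟩, h⟩
    exact ⟨U.comap V.subtype, ⟨U, hU, rfl⟩, h⟩
  · rintro ⟨W, ⟨U, hU, rfl⟩, h⟩
    obtain ⟨U₀, hU₀, hle₀⟩ := hV
    obtain ⟨U', hU', hle⟩ := 𝒰.directed U hU U₀ hU₀
    refine ⟨U'.subgroupOf V, ⟨U', hU', (hle.trans inf_le_right).trans hle₀, rfl⟩,
      fun g g' s s' hs hs' => h g g' s s' ?_ ?_⟩
    · exact (hle.trans inf_le_left) (Subgroup.mem_subgroupOf.1 hs)
    · exact (hle.trans inf_le_left) (Subgroup.mem_subgroupOf.1 hs')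

end Levels

/-! ### `TowerSplit` -/

/-- **TOWER-SPLIT** (helper94's `GlobalMod94.OpenJS.TowerSplit`, literally), for `p ∈ S`, from the
cyclicity of `H²` of the finite local layers. -/
theorem towerSplit_of_layerCoh {p : ℕ} (hp : p.Prime) (S : Finset Nat.Primes)
    (hpS : (⟨p, hp⟩ : Nat.Primes) ∈ S) (hL : LocalLayerCoh q) :
    GlobalMod94.OpenJS.TowerSplit p S q := by
  intro Γw U₁ hU₁ hU₁Γ c n hx
  have hV : CD3.IsOpenSub (lev q) Γw :=
    ⟨U₁.comap (localGaloisToGlobal q),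
      LevelStr.mem_comap_levels.2 ⟨U₁, SplitLocal.mem_allLevels_of_mem_globalLevels hU₁, rfl⟩,
      hU₁Γ⟩
  -- the cocycle in the `restrictLevels` vocabulary
  set c' : ↥Γw × ↥Γw → unitsRep ↥Γw (Om q) := c.1 with hc'
  have hc₁ : c' ∈ (CD3.restrictLevels (lev q) Γw hV).Z₂ (unitsRep ↥Γw (Om q)) := by
    have h := ((LevelStr.mem_Z₂_iff _ _ _).1 c.2)
    exact (LevelStr.mem_Z₂_iff _ _ _).2
      ⟨h.1, (isConst₂_restrict_iff (lev q) Γw hV _).2 h.2⟩
  have hx₁ : p ^ n • (CD3.restrictLevels (lev q) Γw hV).H2π (unitsRep ↥Γw (Om q))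
      ⟨c', hc₁⟩ = 0 := by
    rw [← map_nsmul, LevelStr.H2π_eq_zero_iff, LevelStr.mem_B₂_iff]
    rw [← map_nsmul, LevelStr.H2π_eq_zero_iff, LevelStr.mem_B₂_iff] at hx
    obtain ⟨e, he, hde⟩ := hx
    exact ⟨e, (isConst₁_restrict_iff (lev q) Γw hV _).2 he, hde⟩
  obtain ⟨U₀, hU₀, hle, b, hb, h1, h2⟩ :=
    SplitLocal.exists_sub_d₁₂_sLevel hp S hpS hL Γw hV hU₁ hU₁Γ n ⟨_, hc₁⟩ hx₁
  exact ⟨U₀, hU₀, hle, b, (isConst₁_restrict_iff (lev q) Γw hV _).1 hb, h1, h2⟩

/-- the cyclicity of `H²` of all finite local layers, UNCONDITIONALLY (helper51's level adapter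
`LocDev51.layerAdapt` + helper80/helper51's absolute class `LocDev51.absClass'`). -/
theorem localLayerCoh (q : ℕ) [Fact q.Prime] : LocalLayerCoh q :=
  localLayerCoh_of_adapt (LocDev51.layerAdapt q)
    (absLayerCoh_of_absFund (absFund_of_absClass (absClass_of_absClass' (LocDev51.absClass' q))))

/-- **TOWER-SPLIT, UNCONDITIONAL** (for a prime `p ∈ S`): helper94's
`GlobalMod94.OpenJS.TowerSplit p S q` for every prime `q`. -/
theorem towerSplit {p : ℕ} (hp : p.Prime) (S : Finset Nat.Primes)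
    (hpS : (⟨p, hp⟩ : Nat.Primes) ∈ S) (q : ℕ) [Fact q.Prime] :
    GlobalMod94.OpenJS.TowerSplit p S q :=
  towerSplit_of_layerCoh hp S hpS (localLayerCoh q)

/-- the same in the binder shape of `GlobalMod94.OpenJS.jside_JS`. -/
theorem towerSplit_forall {p : ℕ} (hp : p.Prime) (S : Finset Nat.Primes)
    (hpS : (⟨p, hp⟩ : Nat.Primes) ∈ S) :
    ∀ q : ↥S, @GlobalMod94.OpenJS.TowerSplit p S ((q : Nat.Primes) : ℕ) ⟨(q : Nat.Primes).2⟩ :=
  fun q => @towerSplit p hp S hpS ((q : Nat.Primes) : ℕ) ⟨(q : Nat.Primes).2⟩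

end Fermat.Agent.S55.CycloTower46.TowerSplit
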