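/-
S55 leaf 34-L (helper46), file 8: the image of the decomposition group at `q ∤ N` under the
cyclotomic character mod `N` is EXACTLY the cyclic group generated by `q` (every element of `G_q`
acts on `μ_N` through a power of the Frobenius: helper93's `UnrExt93.exists_actsAs` for `K = ℚ_q`),
hence `[G_q : Stab(μ_N)] = ord(q mod N)`, and in the `ℤ_p`-tower the image of `G_q`, `q ≠ p`, in
`Γ_m` is `⟨⟨q⟩⟩`.
-/
import Mathlib
import Fermat.Agent.S55.UnrExt93.FrobChar
import Fermat.Agent.S55.CycloTower46.Tower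

set_option autoImplicit false

namespace Fermat.Agent.S55.CycloTower46.Decomp

open Fermat.Agent.Lib.FrobeniusExists Fermat.Agent.S55.CycloTower46.Global
  Fermat.Agent.S55.CycloTower46.Local Fermat.Agent.S55.CycloTower46.Char
  Fermat.Agent.S55.CycloTower46.Tower Fermat.Agent.S55.CycloRecip90

variable (q : ℕ) [Fact q.Prime] {N : ℕ} [NeZero N]

/-- **`q ∤ N`: every element of `G_q` acts on `μ_N ⊆ ℚ̄_q` through a power of `q`.** -/
theorem exists_forall_apply_eq_pow (hN : ¬ q ∣ N) (τ : Gq q) :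
    ∃ k : ℕ, ∀ η : PadicAlgCl q, η ^ N = 1 → τ η = η ^ (q ^ k) := by
  have hq : q.Prime := Fact.out
  have hN0 : 0 < N := Nat.pos_of_ne_zero (NeZero.ne N)
  let K : IntermediateField ℚ_[q] (PadicAlgCl q) := ⊥
  obtain ⟨a, ha, hQ⟩ := Fermat.Agent.S55.UnrExt93.resCard_pos_pow (q := q) K
  set Q := Fermat.Agent.S55.UnrExt93.resCard q K with hQdef
  have hcop : Nat.Coprime Q N := by
    rw [hQ]
    exact Nat.Coprime.pow_left a ((Nat.Prime.coprime_iff_not_dvd hq).mpr hN)
  -- `N ∣ Q ^ φ(N) - 1`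
  have hn : 0 < N.totient := Nat.totient_pos.mpr hN0
  have hdvd : N ∣ Q ^ N.totient - 1 := by
    have h1 : Q ^ N.totient ≡ 1 [MOD N] := Nat.ModEq.pow_totient hcop
    have hQpos : 1 ≤ Q ^ N.totient := Nat.one_le_pow _ _ (by rw [hQ]; exact pow_pos hq.pos a)
    exact (Nat.modEq_iff_dvd' hQpos).mp h1.symm
  have hτ : τ ∈ K.fixingSubgroup := by
    rw [IntermediateField.fixingSubgroup_bot]
    exact Subgroup.mem_top τ
  obtain ⟨i, -, hi⟩ := Fermat.Agent.S55.UnrExt93.exists_actsAs (K := K) hn hτ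
  refine ⟨a * i, fun η hη => ?_⟩
  have hη' : η ^ (Q ^ N.totient - 1) = 1 := by
    obtain ⟨t, ht⟩ := hdvd
    rw [ht, pow_mul, hη, one_pow]
  rw [hi η hη', ← hQdef, hQ, ← pow_mul]

/-- **`q ∤ N`: the image of `G_q` under the cyclotomic character mod `N` is `⟨q⟩`.** -/
theorem range_localCycChar (hN : ¬ q ∣ N) :
    (localCycChar q N).range =
      Subgroup.zpowers (ZMod.unitOfCoprime q
        ((Nat.Prime.coprime_iff_not_dvd (Fact.out : q.Prime)).mpr hN)) := by
  have hq : q.Prime := Fact.out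
  set u := ZMod.unitOfCoprime q ((Nat.Prime.coprime_iff_not_dvd hq).mpr hN) with hu
  have hu' : ((u : (ZMod N)ˣ) : ZMod N) = (q : ZMod N) := ZMod.coe_unitOfCoprime q _
  apply le_antisymm
  · rintro _ ⟨τ, rfl⟩
    obtain ⟨k, hk⟩ := exists_forall_apply_eq_pow q hN τ
    rw [Subgroup.mem_zpowers_iff]
    refine ⟨(k : ℤ), ?_⟩
    rw [zpow_natCast]
    apply Units.ext
    rw [Units.val_pow_eq_pow_val, hu']
    refine localCycChar_unique q τ _ fun η hη => ?_
    rw [hk η hη, ← Nat.cast_pow, ZMod.val_natCast, ← pow_eq_pow_mod _ hη]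
  · rw [Subgroup.zpowers_le]
    obtain ⟨τ, hτ⟩ := exists_frobenius_on_roots q
    refine ⟨τ, Units.ext ?_⟩
    rw [localCycChar_frobenius q (hτ N hN), hu']

/-- **`q ∤ N`: `[G_q : Stab(μ_N)] = [ℚ_q(μ_N) : ℚ_q]` is the order of `q` modulo `N`.** -/
theorem index_levelStab_of_not_dvd (hN : ¬ q ∣ N) :
    (levelStab q N).index =
      orderOf (ZMod.unitOfCoprime q
        ((Nat.Prime.coprime_iff_not_dvd (Fact.out : q.Prime)).mpr hN)) := by
  rw [← ker_localCycChar, Subgroup.index_ker, range_localCycChar q hN, Nat.card_zpowers]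

theorem finrank_localCyclo_of_not_dvd (hN : ¬ q ∣ N) :
    Module.finrank ℚ_[q] (localCyclo q N) =
      orderOf (ZMod.unitOfCoprime q
        ((Nat.Prime.coprime_iff_not_dvd (Fact.out : q.Prime)).mpr hN)) := by
  rw [IntermediateField.finrank_eq_fixingSubgroup_index,
    fixingSubgroup_localCyclo q (NeZero.ne N), index_levelStab_of_not_dvd q hN]

/-- **`q ≠ p`: the image of `G_q` in `Γ_m` is the cyclic group generated by `⟨q⟩`.** -/
theorem range_localTowerChar_of_ne (p : ℕ) [Fact p.Prime] (m : ℕ) (hqp : q ≠ p) :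
    (localTowerChar p m q).range =
      Subgroup.zpowers (angle m q ((Nat.coprime_primes Fact.out Fact.out).mpr hqp)) := by
  have hp : p.Prime := Fact.out
  have hq : q.Prime := Fact.out
  have hN : ¬ q ∣ p ^ (m + 1) := fun hd =>
    hqp ((Nat.prime_dvd_prime_iff_eq hq hp).mp (hq.dvd_of_dvd_pow hd))
  have h1 : localTowerChar p m q =
      (powMonoidHom (p - 1)).comp (localCycChar q (p ^ (m + 1))) := rfl
  rw [h1, MonoidHom.range_comp, range_localCycChar q hN, MonoidHom.map_zpowers]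
  rfl

end Fermat.Agent.S55.CycloTower46.Decomp
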