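/-
S55 leaf 34-L (helper46), file 6: the `Γ_m`-valued character of the cyclotomic `ℤ_p`-tower in the
vocabulary of `CycloRecip90` (`Gamma p m`, `angle m a`): `towerChar p m = (cycChar (p^(m+1)))^(p-1)`,
its restrictions `localTowerChar p m q` to the local Galois groups; at `q ≠ p` it is unramified
with value `⟨q⟩` on Frobenius lifts, at `q = p` it is onto `Γ_m` (the decomposition group at `p`
is the whole group `Gal(ℚ_m/ℚ) = Γ_m`).
-/
import Mathlib
import Fermat.Agent.S55.CycloRecip90.ProductFormula
import Fermat.Agent.S55.CycloTower46.Char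

set_option autoImplicit false

namespace Fermat.Agent.S55.CycloTower46.Tower

open Fermat.Agent.Lib.FrobeniusExists Fermat.Agent.S55.CycloTower46.Global
  Fermat.Agent.S55.CycloTower46.Local Fermat.Agent.S55.CycloTower46.Char
  Fermat.Agent.S55.CycloRecip90

variable (p : ℕ) [Fact p.Prime] (m : ℕ)

/-- **the tower character** `χ_m : Gal(ℚ̄/ℚ) → Γ_m ⊆ (ℤ/p^(m+1))ˣ`, `σ ↦ (cyclotomic character of
`σ` mod `p^(m+1)`)^(p-1)`. -/
noncomputable def towerChar : GQ →* (ZMod (p ^ (m + 1)))ˣ :=
  (powMonoidHom (p - 1)).comp (cycChar (p ^ (m + 1)))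

theorem towerChar_apply (σ : GQ) : towerChar p m σ = cycChar (p ^ (m + 1)) σ ^ (p - 1) := rfl

theorem towerChar_mem_Gamma (σ : GQ) : towerChar p m σ ∈ Gamma p m := ⟨_, rfl⟩

/-- `Gal(ℚ_m/ℚ) = Γ_m` -/
theorem range_towerChar : (towerChar p m).range = Gamma p m := by
  rw [towerChar, MonoidHom.range_comp,
    MonoidHom.range_eq_top.mpr (cycChar_surjective (N := p ^ (m + 1))), ← MonoidHom.range_eq_map]
  rfl

/-- the fixing subgroup of `ℚ(μ_{p^(m+1)})` is contained in the kernel of the tower character -/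
theorem fixingSubgroup_cycloField_le_ker :
    (cycloField (p ^ (m + 1))).fixingSubgroup ≤ (towerChar p m).ker := by
  rw [← ker_cycChar]
  intro σ hσ
  rw [MonoidHom.mem_ker] at hσ ⊢
  rw [towerChar_apply, hσ, one_pow]

/-- compatibility in the tower -/
theorem towerChar_map (σ : GQ) :
    ZMod.unitsMap (pow_dvd_pow p (Nat.le_succ (m + 1))) (towerChar p (m + 1) σ) =
      towerChar p m σ := by
  rw [towerChar_apply, map_pow, cycChar_map, towerChar_apply]

/-- **the value of the tower character on a Frobenius element at `q ≠ p` is `⟨q⟩`** -/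
theorem towerChar_of_isFrobeniusAt {q : ℕ} (hq : q.Prime) (hqp : q ≠ p)
    (A : ValuationSubring Qb) (hA : A.LiesOverPrime q) {σ : GQ} (h : A.IsFrobeniusAt σ q) :
    towerChar p m σ = angle m q ((Nat.coprime_primes hq Fact.out).mpr hqp) := by
  have hp : p.Prime := Fact.out
  have hN : ¬ q ∣ p ^ (m + 1) := fun hd =>
    hqp ((Nat.prime_dvd_prime_iff_eq hq hp).mp (hq.dvd_of_dvd_pow hd))
  rw [towerChar_apply, angle]
  congr 1
  apply Units.ext
  rw [cycChar_of_isFrobeniusAt hq A hA h hN, ZMod.coe_unitOfCoprime]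

/-- **the tower character is unramified at `q ≠ p`** -/
theorem towerChar_of_mem_inertia {q : ℕ} (hq : q.Prime) (hqp : q ≠ p)
    (A : ValuationSubring Qb) (hA : A.LiesOverPrime q) {σ : GQ}
    (hσ : σ ∈ A.inertiaSubgroupIn ℚ) : towerChar p m σ = 1 := by
  have hp : p.Prime := Fact.out
  have hN : ¬ q ∣ p ^ (m + 1) := fun hd =>
    hqp ((Nat.prime_dvd_prime_iff_eq hq hp).mp (hq.dvd_of_dvd_pow hd))
  rw [towerChar_apply, cycChar_of_mem_inertia hq A hA hσ hN, one_pow]

/-! ### local restrictions -/

variable (q : ℕ) [Fact q.Prime]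

/-- the restriction of the tower character to the local Galois group at `q` -/
noncomputable def localTowerChar : Gq q →* (ZMod (p ^ (m + 1)))ˣ :=
  (towerChar p m).comp (localGaloisToGlobal q)

theorem localTowerChar_apply (τ : Gq q) :
    localTowerChar p m q τ = localCycChar q (p ^ (m + 1)) τ ^ (p - 1) := rfl

theorem localTowerChar_mem_Gamma (τ : Gq q) : localTowerChar p m q τ ∈ Gamma p m := ⟨_, rfl⟩

/-- **`q ≠ p`: a Frobenius lift goes to `⟨q⟩`** -/
theorem localTowerChar_frobenius (hqp : q ≠ p) {τ : Gq q}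
    (hτ : ∀ η : PadicAlgCl q, η ^ p ^ (m + 1) = 1 → τ η = η ^ q) :
    localTowerChar p m q τ = angle m q ((Nat.coprime_primes Fact.out Fact.out).mpr hqp) := by
  rw [localTowerChar_apply, angle]
  congr 1
  apply Units.ext
  rw [localCycChar_frobenius q hτ, ZMod.coe_unitOfCoprime]

/-- **`q ≠ p`: the tower character is trivial on the inertia subgroup of `G_q`** -/
theorem localTowerChar_of_mem_localInertia (hqp : q ≠ p) {τ : Gq q}
    (hτ : τ ∈ Fermat.Agent.S55.UnrBridge42.localInertia q) : localTowerChar p m q τ = 1 := by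
  have hp : p.Prime := Fact.out
  have hq : q.Prime := Fact.out
  have hN : ¬ q ∣ p ^ (m + 1) := fun hd =>
    hqp ((Nat.prime_dvd_prime_iff_eq hq hp).mp (hq.dvd_of_dvd_pow hd))
  rw [localTowerChar_apply, localCycChar_of_mem_localInertia q hN hτ, one_pow]

/-- there is a Frobenius lift in `G_q`, `q ≠ p`, with `χ_m(τ) = ⟨q⟩` for ALL `m` simultaneously -/
theorem exists_localTowerChar_eq_angle (hqp : q ≠ p) :
    ∃ τ : Gq q, ∀ m : ℕ,
      localTowerChar p m q τ = angle m q ((Nat.coprime_primes Fact.out Fact.out).mpr hqp) := by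
  have hp : p.Prime := Fact.out
  have hq : q.Prime := Fact.out
  obtain ⟨τ, hτ⟩ := exists_frobenius_on_roots q
  refine ⟨τ, fun m => localTowerChar_frobenius p m q hqp (hτ _ fun hd => ?_)⟩
  exact hqp ((Nat.prime_dvd_prime_iff_eq hq hp).mp (hq.dvd_of_dvd_pow hd))

/-- **`q = p`: the decomposition group at `p` is everything**: the local tower character at `p`
is onto `Γ_m`. -/
theorem range_localTowerChar_self : (localTowerChar p m p).range = Gamma p m := by
  have : localTowerChar p m p = (powMonoidHom (p - 1)).comp (localCycChar p (p ^ (m + 1))) := rfl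
  rw [this, MonoidHom.range_comp,
    MonoidHom.range_eq_top.mpr (localCycChar_surjective_prime_pow p m), ← MonoidHom.range_eq_map]
  rfl

theorem range_localTowerChar_self_eq : (localTowerChar p m p).range = (towerChar p m).range := by
  rw [range_localTowerChar_self, range_towerChar]

/-- `p` odd: the `m`-th layer of the local cyclotomic `ℤ_p`-tower has degree `p ^ m` -/
theorem index_ker_localTowerChar_self (hp2 : p ≠ 2) :
    (localTowerChar p m p).ker.index = p ^ m := by
  rw [Subgroup.index_ker, range_localTowerChar_self, card_Gamma hp2]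

/-- `p` odd: `[ℚ_m : ℚ] = p ^ m` -/
theorem index_ker_towerChar (hp2 : p ≠ 2) : (towerChar p m).ker.index = p ^ m := by
  rw [Subgroup.index_ker, range_towerChar, card_Gamma hp2]

end Fermat.Agent.S55.CycloTower46.Tower
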