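/-
S55 leaf 34-L (helper46), file 7: the layers `ℚ_m ⊆ ℚ̄` of the cyclotomic `ℤ_p`-extension as
intermediate fields: `towerField p m := fixedField (ker χ_m)`; `Gal(ℚ̄/ℚ_m) = ker χ_m`,
`ℚ_m ⊆ ℚ(μ_{p^(m+1)})`, unramified outside `S ∋ p`, Galois over `ℚ` with group `≃ Γ_m`, cyclic of
degree `p ^ m` for `p` odd.
-/
import Mathlib
import Fermat.Agent.S55.CycloTower46.Tower

set_option autoImplicit false

namespace Fermat.Agent.S55.CycloTower46.TowerField

open Fermat.Agent.Lib.FrobeniusExists Fermat.Agent.S55.CycloTower46.Global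
  Fermat.Agent.S55.CycloTower46.Local Fermat.Agent.S55.CycloTower46.Char
  Fermat.Agent.S55.CycloTower46.Tower Fermat.Agent.S55.CycloRecip90

attribute [local instance] isAlgebraic_Qb isAlgClosure_Qb isGalois_Qb

variable (p : ℕ) [Fact p.Prime] (m : ℕ)

theorem isOpen_ker_towerChar : IsOpen ((towerChar p m).ker : Set GQ) := by
  have hp : p.Prime := Fact.out
  have hfd : FiniteDimensional ℚ (cycloField (p ^ (m + 1))) :=
    finiteDimensional_cycloField (pow_ne_zero (m + 1) hp.ne_zero)
  exact Subgroup.isOpen_mono (fixingSubgroup_cycloField_le_ker p m)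
    (IntermediateField.fixingSubgroup_isOpen _)

/-- **the `m`-th layer `ℚ_m` of the cyclotomic `ℤ_p`-extension of `ℚ`** -/
noncomputable def towerField : IntermediateField ℚ Qb :=
  IntermediateField.fixedField (towerChar p m).ker

/-- `Gal(ℚ̄/ℚ_m) = ker χ_m` -/
theorem fixingSubgroup_towerField : (towerField p m).fixingSubgroup = (towerChar p m).ker := by
  let H : ClosedSubgroup GQ :=
    ⟨(towerChar p m).ker, Subgroup.isClosed_of_isOpen _ (isOpen_ker_towerChar p m)⟩
  exact InfiniteGalois.fixingSubgroup_fixedField H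

theorem mem_fixingSubgroup_towerField_iff {σ : GQ} :
    σ ∈ (towerField p m).fixingSubgroup ↔ towerChar p m σ = 1 := by
  rw [fixingSubgroup_towerField, MonoidHom.mem_ker]

theorem towerField_le_cycloField : towerField p m ≤ cycloField (p ^ (m + 1)) := by
  rw [← InfiniteGalois.fixedField_fixingSubgroup (cycloField (p ^ (m + 1)))]
  exact IntermediateField.fixedField_antitone (fixingSubgroup_cycloField_le_ker p m)

theorem finiteDimensional_towerField : FiniteDimensional ℚ (towerField p m) :=
  (InfiniteGalois.isOpen_iff_finite _).mp (by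
    rw [fixingSubgroup_towerField]
    exact isOpen_ker_towerChar p m)

/-- **`ℚ_m` is unramified outside `S ∋ p`** (Prelude vocabulary) -/
theorem towerField_isUnramifiedOutside (S : Finset Nat.Primes)
    (hpS : (⟨p, Fact.out⟩ : Nat.Primes) ∈ S) : (towerField p m).IsUnramifiedOutside S :=
  IntermediateField.IsUnramifiedOutside.of_le (towerField_le_cycloField p m)
    (cycloField_prime_pow_isUnramifiedOutside S ⟨p, Fact.out⟩ hpS (m + 1))

theorem isGalois_towerField : IsGalois ℚ (towerField p m) :=
  (InfiniteGalois.normal_iff_isGalois _).mp (by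
    rw [fixingSubgroup_towerField]
    infer_instance)

theorem towerField_mono : towerField p m ≤ towerField p (m + 1) := by
  refine IntermediateField.fixedField_antitone fun σ hσ => ?_
  rw [MonoidHom.mem_ker] at hσ ⊢
  rw [← towerChar_map, hσ, map_one]

/-- `p` odd: `[ℚ_m : ℚ] = p ^ m` -/
theorem finrank_towerField (hp2 : p ≠ 2) : Module.finrank ℚ (towerField p m) = p ^ m := by
  rw [IntermediateField.finrank_eq_fixingSubgroup_index, fixingSubgroup_towerField,
    index_ker_towerChar p m hp2]

/-- `ker χ_m` as a closed subgroup -/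
noncomputable def kerClosed : ClosedSubgroup GQ :=
  ⟨(towerChar p m).ker, Subgroup.isClosed_of_isOpen _ (isOpen_ker_towerChar p m)⟩

instance kerClosed_normal : (kerClosed p m).Normal :=
  inferInstanceAs (towerChar p m).ker.Normal

/-- `Gal(ℚ_m/ℚ) ≃ Γ_m`, induced by the tower character -/
noncomputable def galEquivGamma :
    (towerField p m ≃ₐ[ℚ] towerField p m) ≃* Gamma p m :=
  ((InfiniteGalois.normalAutEquivQuotient (kerClosed p m)).symm.trans
    (QuotientGroup.quotientKerEquivRange (towerChar p m))).trans
    (MulEquiv.subgroupCongr (range_towerChar p m))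

theorem galEquivGamma_restrict (σ : GQ) :
    have : IsGalois ℚ (towerField p m) := isGalois_towerField p m
    ((galEquivGamma p m (AlgEquiv.restrictNormalHom (towerField p m) σ) : Gamma p m) :
      (ZMod (p ^ (m + 1)))ˣ) = towerChar p m σ := by
  intro _
  show ((galEquivGamma p m (InfiniteGalois.normalAutEquivQuotient (kerClosed p m)
    (QuotientGroup.mk σ)) : Gamma p m) : (ZMod (p ^ (m + 1)))ˣ) = towerChar p m σ
  show ((MulEquiv.subgroupCongr (range_towerChar p m)
    (QuotientGroup.quotientKerEquivRange (towerChar p m)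
      ((InfiniteGalois.normalAutEquivQuotient (kerClosed p m)).symm
        (InfiniteGalois.normalAutEquivQuotient (kerClosed p m) (QuotientGroup.mk σ)))) :
          Gamma p m) : (ZMod (p ^ (m + 1)))ˣ) = towerChar p m σ
  rw [MulEquiv.symm_apply_apply]
  rfl

/-- `p` odd: `Gal(ℚ_m/ℚ)` is cyclic of order `p ^ m` -/
theorem isCyclic_gal_towerField (hp2 : p ≠ 2) :
    IsCyclic (towerField p m ≃ₐ[ℚ] towerField p m) := by
  have := isCyclic_Gamma (p := p) hp2 m
  exact isCyclic_of_surjective (galEquivGamma p m).symm (galEquivGamma p m).symm.surjective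

theorem card_gal_towerField (hp2 : p ≠ 2) :
    Nat.card (towerField p m ≃ₐ[ℚ] towerField p m) = p ^ m := by
  rw [Nat.card_congr (galEquivGamma p m).toEquiv, card_Gamma hp2]

end Fermat.Agent.S55.CycloTower46.TowerField
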